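import Fermat.Agent.S14.Interface

/-!
# S14, crossing with cyclotomic fields: interfaces of the small independent pieces

See `NOTES/blueprint-S14-miniCFT.md`, section 2.  As in `Interface.lean`, the statements are
`Prop`s; the owner of a piece proves `theorem xxx : Xxx` (or the displayed implication) in his
own file.
-/

set_option autoImplicit false

open NumberField
open scoped nonZeroDivisors

namespace Fermat.Agent.S14

/-- **(X1) auxiliary primes**: for primes `p ≠ 2` and `ℓ ≡ 1 mod p` there are two distinct primes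
`r, r'`, different from `p` and `ℓ`, modulo which the order of `ℓ` is divisible by `p`.
(Take `r ∣ Φ_p(ℓ)` and `r' ∣ Φ_p(ℓ ^ p)`, both `≠ p`.) -/
def AuxPrime : Prop :=
  ∀ (p ℓ : ℕ), p.Prime → p ≠ 2 → ℓ.Prime → ℓ % p = 1 →
    ∃ r r' : ℕ, r.Prime ∧ r'.Prime ∧ r ≠ r' ∧ r ≠ p ∧ r' ≠ p ∧ r ≠ ℓ ∧ r' ≠ ℓ ∧
      p ∣ orderOf (ℓ : ZMod r) ∧ p ∣ orderOf (ℓ : ZMod r')

/-- **(X1') auxiliary characters**: if `p ∣ orderOf (ℓ mod r)`, every primitive `p`-th root of
unity `ω` is the value at `ℓ` of a Dirichlet character mod `r` of `p`-power order. -/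
def AuxChar : Prop :=
  ∀ (p r ℓ : ℕ) (ω : ℂ), p.Prime → r.Prime → (ℓ : ZMod r) ≠ 0 →
    p ∣ orderOf (ℓ : ZMod r) → IsPrimitiveRoot ω p →
    ∃ χ : DirichletCharacter ℂ r, χ (ℓ : ZMod r) = ω ∧ ∃ k : ℕ, χ ^ (p ^ k) = 1

/-- **(X3) coprime representatives**: every ideal class of a number field contains an integral
ideal whose absolute norm is prime to a given `m ≠ 0`. -/
def CoprimeRep : Prop :=
  ∀ (E : Type) [Field E] [NumberField E] (m : ℕ), m ≠ 0 → ∀ c : ClassGroup (𝓞 E),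
    ∃ I : (Ideal (𝓞 E))⁰, ClassGroup.mk0 I = c ∧ (Ideal.absNorm (I : Ideal (𝓞 E))).Coprime m

/-- **(X3') a prime which is not a norm**: consequence of `FirstIneq` and `CoprimeRep`. -/
def NonNormPrime : Prop :=
  ∀ (p : ℕ) (E M : Type) [Field E] [NumberField E] [Field M] [NumberField M] [Algebra E M]
    [IsGalois E M] (m : ℕ), p.Prime → p ≠ 2 → Module.finrank E M = p →
    UnramifiedEverywhere E M → m ≠ 0 →
    ∃ P : (Ideal (𝓞 E))⁰, (P : Ideal (𝓞 E)).IsPrime ∧
      (Ideal.absNorm (P : Ideal (𝓞 E))).Coprime m ∧ ClassGroup.mk0 P ∉ normClasses E M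

/-- Statement of (X3'): to be proved as `FirstIneq → CoprimeRep → NonNormPrime`. -/
def NonNormPrimeImp : Prop := FirstIneq → CoprimeRep → NonNormPrime

/-- **(X2) reciprocity for a "cyclotomic" unramified extension** (abstract form).
`χ` is a Dirichlet character mod `r` which
(ha) kills the norms of the elements of `𝓞 E` prime to `r`,
(hb) kills the norms of the ideals of `M` prime to `r`,
(hc) does not kill the norm of some ideal of `E` prime to `r`.
Then every ideal of `E` prime to `r` whose norm is killed by `χ` lies in a norm class. -/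
def ERec : Prop :=
  ∀ (p r : ℕ) (E M : Type) [Field E] [NumberField E] [Field M] [NumberField M] [Algebra E M]
    [IsGalois E M] (ζ : E) (χ : DirichletCharacter ℂ r),
    p.Prime → p ≠ 2 → r.Prime → IsPrimitiveRoot ζ p → Module.finrank E M = p →
    UnramifiedEverywhere E M →
    (∀ β : 𝓞 E, (Ideal.absNorm (Ideal.span {β})).Coprime r →
      χ ((Ideal.absNorm (Ideal.span {β}) : ℕ) : ZMod r) = 1) →
    (∀ I : Ideal (𝓞 M), (Ideal.absNorm I).Coprime r → χ ((Ideal.absNorm I : ℕ) : ZMod r) = 1) →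
    (∃ I : Ideal (𝓞 E), (Ideal.absNorm I).Coprime r ∧ χ ((Ideal.absNorm I : ℕ) : ZMod r) ≠ 1) →
    ∀ I : (Ideal (𝓞 E))⁰, (Ideal.absNorm (I : Ideal (𝓞 E))).Coprime r →
      χ ((Ideal.absNorm (I : Ideal (𝓞 E)) : ℕ) : ZMod r) = 1 →
      ClassGroup.mk0 I ∈ normClasses E M

/-- Statement of (X2): to be proved as `SecondIneqKummer → CoprimeRep → ERec`. -/
def ERecImp : Prop := SecondIneqKummer → CoprimeRep → ERec

/-- **(X7) functoriality of norm classes**: in a square of number fields `K ⊆ E ⊆ M`,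
`K ⊆ L ⊆ M`, the relative norm from `E` to `K` maps norm classes of `M/E` to norm classes
of `L/K`. -/
def NormFunct : Prop :=
  ∀ (K L E M : Type) [Field K] [NumberField K] [Field L] [NumberField L]
    [Field E] [NumberField E] [Field M] [NumberField M]
    [Algebra K L] [Algebra K E] [Algebra E M] [Algebra L M] [Algebra K M]
    [IsScalarTower K E M] [IsScalarTower K L M]
    (I : (Ideal (𝓞 E))⁰) (J : (Ideal (𝓞 K))⁰),
    ClassGroup.mk0 I ∈ normClasses E M →
    (J : Ideal (𝓞 K)) = Ideal.relNorm (𝓞 K) (I : Ideal (𝓞 E)) →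
    ClassGroup.mk0 J ∈ normClasses K L

/-- `normClasses E M` is closed under multiplication, contains `1` and all `p`-th powers when
`[M : E] = p` (so it is a subgroup of the finite group `ClassGroup (𝓞 E)` of exponent-`p`
quotient). -/
def NormClassesSubgroup : Prop :=
  ∀ (E M : Type) [Field E] [NumberField E] [Field M] [NumberField M] [Algebra E M],
    ∃ N : Subgroup (ClassGroup (𝓞 E)), (N : Set (ClassGroup (𝓞 E))) = normClasses E M ∧
      ∀ c : ClassGroup (𝓞 E), c ^ Module.finrank E M ∈ N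

/-- `τ` is a Frobenius element at the prime `Q` of `𝓞 L` with respect to a residue field with
`q` elements: `τ x ≡ x ^ q mod Q`. -/
def IsFrobAt {L : Type} [Field L] [NumberField L] (τ : L ≃ₐ[ℚ] L) (Q : Ideal (𝓞 L)) (q : ℕ) :
    Prop :=
  ∀ x : 𝓞 L, ∃ y ∈ Q, τ (x : L) - (x : L) ^ q = (y : L)

open IntermediateField in
/-- **(X8) Compare** = Artin reciprocity for `L/ℚ(ζ)` on two primes above the same `ℓ ≡ 1 mod p`:
if the Frobenius elements at `Q`, `Q'` (primes of `L` above `ℓ`) are `τ ≠ 1` and `τ ^ u`, then the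
classes of the primes `q`, `q'` of `ℚ(ζ)` below them satisfy `[q'] = [q] ^ u` modulo norm classes.
The first six hypotheses are those of `NoExt`. -/
def Compare : Prop :=
  ∀ (p : ℕ) (L : Type) [Field L] [NumberField L] [IsGalois ℚ L] (ζ : L),
    p.Prime → 3 ≤ p → IsPrimitiveRoot ζ p →
    Nat.card {τ : L ≃ₐ[ℚ] L // τ ζ = ζ} = p →
    (∀ (g τ : L ≃ₐ[ℚ] L) (k : ℕ), τ ζ = ζ → g ζ = ζ ^ k → g⁻¹ * τ * g = τ ^ k) →
    (∀ (P : Ideal (𝓞 L)), P.IsPrime → P ≠ ⊥ →
      ∀ τ : L ≃ₐ[ℚ] L, τ ζ = ζ → InInertia τ P → τ = 1) →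
    ∀ (ℓ u : ℕ) (Q Q' : Ideal (𝓞 L)) (τ : L ≃ₐ[ℚ] L) (q q' : (Ideal (𝓞 ℚ⟮ζ⟯))⁰),
      ℓ.Prime → ℓ % p = 1 → ¬ p ∣ u → Q.IsPrime → Q'.IsPrime →
      (ℓ : 𝓞 L) ∈ Q → (ℓ : 𝓞 L) ∈ Q' →
      τ ζ = ζ → τ ≠ 1 → IsFrobAt τ Q ℓ → IsFrobAt (τ ^ u) Q' ℓ →
      (q : Ideal (𝓞 ℚ⟮ζ⟯)) = Q.under (𝓞 ℚ⟮ζ⟯) → (q' : Ideal (𝓞 ℚ⟮ζ⟯)) = Q'.under (𝓞 ℚ⟮ζ⟯) →
      ∃ c ∈ normClasses ℚ⟮ζ⟯ L, ClassGroup.mk0 q' = ClassGroup.mk0 q ^ u * c

/-- **(X9) final assembly**: `NoExt` from the first inequality for `L/ℚ(ζ)`, Stickelberger and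
`Compare` (blueprint, section 1: facts (F1)-(F5) and "Conclusion"). -/
def FinalAssembly : Prop :=
  FirstIneq → StickelbergerJacobi → NormClassesSubgroup → Compare → NoExt

/-- **(X8) statement**: `Compare` from the small pieces (blueprint, section 2). -/
def CompareImp : Prop :=
  FirstIneq → ERec → NormFunct → AuxPrime → AuxChar → CoprimeRep → NonNormPrime → Compare

end Fermat.Agent.S14
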