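import Fermat.Agent.S14.CrossingInterface

/-!
# S14 (X3): every ideal class contains an integral ideal of norm prime to `m`
-/

set_option autoImplicit false

open NumberField
open scoped nonZeroDivisors

namespace Fermat.Agent.S14

/-- If `K ⊔ span {n} = ⊤` then the absolute norm of `K` is prime to `n`. -/
theorem cr_coprime_absNorm_of_sup_eq_top {E : Type} [Field E] [NumberField E]
    (K : Ideal (𝓞 E)) (n : ℕ) (h : K ⊔ Ideal.span {(n : 𝓞 E)} = ⊤) :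
    (Ideal.absNorm K).Coprime n := by
  by_contra hc
  obtain ⟨ℓ, hℓ, hℓK, hℓn⟩ := Nat.Prime.not_coprime_iff_dvd.mp hc
  obtain ⟨P, hPmax, hPunder, hPK⟩ := Ideal.exists_isMaximal_dvd_of_dvd_absNorm' hℓ K hℓK
  have hKP : K ≤ P := Ideal.le_of_dvd hPK
  have hℓP : ((ℓ : ℤ) : 𝓞 E) ∈ P := by
    have : (ℓ : ℤ) ∈ P.under ℤ := by
      rw [hPunder]; exact Ideal.mem_span_singleton_self _
    simpa [Ideal.under, Ideal.mem_comap] using this
  have hnP : (n : 𝓞 E) ∈ P := by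
    obtain ⟨k, rfl⟩ := hℓn
    have : ((ℓ * k : ℕ) : 𝓞 E) = ((ℓ : ℤ) : 𝓞 E) * (k : 𝓞 E) := by push_cast; ring
    rw [this]
    exact P.mul_mem_right _ hℓP
  have : (⊤ : Ideal (𝓞 E)) ≤ P := by
    rw [← h]
    exact sup_le hKP ((Ideal.span_singleton_le_iff_mem _).mpr hnP)
  exact hPmax.ne_top (top_le_iff.mp this)

/-- `span {n}` is a proper ideal of `𝓞 E` for `n ≥ 2`. -/
theorem cr_span_natCast_ne_top {E : Type} [Field E] [NumberField E] (n : ℕ) (hn : 2 ≤ n) :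
    Ideal.span {(n : 𝓞 E)} ≠ ⊤ := by
  intro h
  have h1 : Ideal.absNorm (Ideal.span {(n : 𝓞 E)}) = 1 := by rw [h, Ideal.absNorm_top]
  rw [Ideal.absNorm_span_natCast] at h1
  have hpos : 0 < Module.finrank ℤ (𝓞 E) := Module.finrank_pos
  have : n = 1 := by
    rcases Nat.pow_eq_one.mp h1 with h | h
    · exact h
    · omega
  omega

/-- **(X3) coprime representatives.** -/
theorem coprimeRep : CoprimeRep := by
  intro E _ _ m hm c
  classical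
  obtain ⟨J, hJ⟩ := ClassGroup.mk0_surjective c⁻¹
  have hJ0 : (J : Ideal (𝓞 E)) ≠ ⊥ := nonZeroDivisors.coe_ne_zero J
  set n : ℕ := 2 * m with hn
  have hn2 : 2 ≤ n := by omega
  have hn0 : (n : 𝓞 E) ≠ 0 := by
    have : n ≠ 0 := by omega
    exact_mod_cast this
  set 𝔪 : Ideal (𝓞 E) := Ideal.span {(n : 𝓞 E)} with h𝔪
  have h𝔪0 : 𝔪 ≠ ⊥ := by
    rw [h𝔪, Ne, Ideal.span_singleton_eq_bot]; exact hn0
  have h𝔪top : 𝔪 ≠ ⊤ := cr_span_natCast_ne_top n hn2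
  obtain ⟨a, ha⟩ := IsDedekindDomain.exists_sup_span_eq
    (I := (J : Ideal (𝓞 E)) * 𝔪) (J := (J : Ideal (𝓞 E))) Ideal.mul_le_left
    (mul_ne_zero hJ0 h𝔪0)
  have haJ : a ∈ (J : Ideal (𝓞 E)) := by
    rw [← ha]; exact Ideal.mem_sup_right (Ideal.mem_span_singleton_self a)
  obtain ⟨K, hK⟩ : (J : Ideal (𝓞 E)) ∣ Ideal.span {a} :=
    Ideal.dvd_iff_le.mpr ((Ideal.span_singleton_le_iff_mem _).mpr haJ)
  have hcop : 𝔪 ⊔ K = ⊤ := by
    have h1 : (J : Ideal (𝓞 E)) * (𝔪 ⊔ K) = (J : Ideal (𝓞 E)) * ⊤ := by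
      rw [Ideal.mul_sup, ← hK, ha, Ideal.mul_top]
    exact mul_left_cancel₀ hJ0 h1
  have hK0 : K ≠ ⊥ := by
    intro h
    rw [h, sup_bot_eq] at hcop
    exact h𝔪top hcop
  have hKmem : K ∈ (Ideal (𝓞 E))⁰ := mem_nonZeroDivisors_of_ne_zero hK0
  have ha0 : a ≠ 0 := by
    intro h
    rw [h] at hK
    have : (J : Ideal (𝓞 E)) * K = ⊥ := by
      rw [← hK]; exact Ideal.span_singleton_eq_bot.mpr rfl
    rcases mul_eq_zero.mp this with h' | h'
    · exact hJ0 h'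
    · exact hK0 h'
  refine ⟨⟨K, hKmem⟩, ?_, ?_⟩
  · have hprod : ClassGroup.mk0 J * ClassGroup.mk0 ⟨K, hKmem⟩ = 1 := by
      rw [← map_mul, ClassGroup.mk0_eq_one_iff]
      have : ((J * ⟨K, hKmem⟩ : (Ideal (𝓞 E))⁰) : Ideal (𝓞 E)) = Ideal.span {a} := by
        rw [hK]; rfl
      rw [this]
      exact ⟨⟨a, rfl⟩⟩
    rw [hJ] at hprod
    exact (inv_mul_eq_one.mp hprod).symm ▸ rfl
  · have h2 : (Ideal.absNorm K).Coprime n := by
      apply cr_coprime_absNorm_of_sup_eq_top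
      rw [sup_comm]; exact hcop
    exact Nat.Coprime.coprime_dvd_right (Dvd.intro_left 2 rfl) h2

end Fermat.Agent.S14
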