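import Fermat.Agent.S14.NonNormPrime

/-!
# S14 (X9) final assembly, part A (helper13)

Setup for `FinalAssembly : FirstIneq → StickelbergerJacobi → NormClassesSubgroup → Compare → NoExt`:
* (A) `L/ℚ(ζ)` is Galois of degree `p` and unramified everywhere;
* (S) existence of Frobenius elements of `L/ℚ` and their action on roots of unity;
* (Z) if all primes of `ℚ(ζ)` have their class in `normClasses`, every class is a norm class.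
-/

set_option autoImplicit false

open NumberField IntermediateField
open scoped nonZeroDivisors

namespace Fermat.Agent.S14

section setup

variable {L : Type} [Field L] [NumberField L] (ζ : L)

/-- `τ` fixes `ℚ(ζ)` pointwise iff it fixes `ζ`. -/
theorem x9a_mem_fixingSubgroup_iff (τ : L ≃ₐ[ℚ] L) :
    τ ∈ (ℚ⟮ζ⟯).fixingSubgroup ↔ τ ζ = ζ := by
  constructor
  · intro h
    exact (IntermediateField.mem_fixingSubgroup_iff _ _).mp h ζ (mem_adjoin_simple_self ℚ ζ)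
  · intro h
    rw [← Subgroup.zpowers_le, ← IntermediateField.le_iff_le, adjoin_simple_le_iff,
      IntermediateField.mem_fixedField_iff]
    rintro f hf
    obtain ⟨k, rfl⟩ := Subgroup.mem_zpowers_iff.mp hf
    have : ∀ n : ℕ, (τ ^ n) ζ = ζ := by
      intro n
      induction n with
      | zero => simp
      | succ n ih => rw [pow_succ, AlgEquiv.mul_apply, h, ih]
    have h2 : τ⁻¹ ζ = ζ := by
      conv_lhs => rw [← h]
      exact AlgEquiv.symm_apply_apply τ ζ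
    have : ∀ n : ℕ, (τ⁻¹ ^ n) ζ = ζ := by
      intro n
      induction n with
      | zero => simp
      | succ n ih => rw [pow_succ, AlgEquiv.mul_apply, h2, ih]
    rcases Int.eq_nat_or_neg k with ⟨n, rfl | rfl⟩
    · simpa using ‹∀ n : ℕ, (τ ^ n) ζ = ζ› n
    · rw [zpow_neg, zpow_natCast, ← inv_pow]
      exact this n

/-- `[L : ℚ(ζ)]` is the number of automorphisms of `L` fixing `ζ`. -/
theorem x9a_finrank [IsGalois ℚ L] :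
    Module.finrank ℚ⟮ζ⟯ L = Nat.card {τ : L ≃ₐ[ℚ] L // τ ζ = ζ} := by
  rw [← IsGalois.card_fixingSubgroup_eq_finrank]
  refine Nat.card_congr (Equiv.subtypeEquivRight fun τ => ?_)
  exact x9a_mem_fixingSubgroup_iff ζ τ

/-- `L/ℚ(ζ)` is unramified everywhere if the automorphisms fixing `ζ` have trivial inertia. -/
theorem x9a_unramified
    (hunr : ∀ (P : Ideal (𝓞 L)), P.IsPrime → P ≠ ⊥ →
      ∀ τ : L ≃ₐ[ℚ] L, τ ζ = ζ → InInertia τ P → τ = 1) :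
    UnramifiedEverywhere ℚ⟮ζ⟯ L := by
  intro P hP hP0 σ hσ
  have h1 : (σ.restrictScalars ℚ) ζ = ζ :=
    σ.commutes ⟨ζ, mem_adjoin_simple_self ℚ ζ⟩
  have h2 : InInertia (σ.restrictScalars ℚ) P := fun x => hσ x
  have h3 := hunr P hP hP0 _ h1 h2
  ext x
  exact DFunLike.congr_fun h3 x

end setup

section concl

variable {E M : Type} [Field E] [NumberField E] [Field M] [NumberField M] [Algebra E M]

/-- If the classes of all nonzero primes are norm classes, then every class is a norm class. -/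
theorem x9a_all_norm_of_primes
    (hall : ∀ q : (Ideal (𝓞 E))⁰, (q : Ideal (𝓞 E)).IsPrime →
      ClassGroup.mk0 q ∈ normClasses E M) (c : ClassGroup (𝓞 E)) : c ∈ normClasses E M := by
  by_contra hc
  obtain ⟨I, rfl⟩ := ClassGroup.mk0_surjective c
  have hI0 : (I : Ideal (𝓞 E)) ≠ ⊥ := mem_nonZeroDivisors_iff_ne_zero.mp I.2
  have hcls : nnp_clsOf (I : Ideal (𝓞 E)) hI0 ∉ normClasses E M := hc
  obtain ⟨P, hP0, hPprime, -, hPn⟩ :=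
    nnp_exists_prime_factor_not_norm (M := M) 1 _ hI0 (Nat.coprime_one_right _) hcls
  exact hPn (hall ⟨P, mem_nonZeroDivisors_iff_ne_zero.mpr hP0⟩ hPprime)

end concl

section frob

variable {L : Type} [Field L] [NumberField L]

theorem x9a_ne_bot_of_natCast_mem {ℓ : ℕ} (hℓ : ℓ.Prime) {Q : Ideal (𝓞 L)}
    (hℓQ : (ℓ : 𝓞 L) ∈ Q) : Q ≠ ⊥ := by
  rintro rfl
  rw [Ideal.mem_bot] at hℓQ
  exact hℓ.ne_zero (by exact_mod_cast hℓQ)

omit [NumberField L] in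
theorem x9a_under_int {ℓ : ℕ} (hℓ : ℓ.Prime) {Q : Ideal (𝓞 L)} (hQ : Q.IsPrime)
    (hℓQ : (ℓ : 𝓞 L) ∈ Q) : Q.under ℤ = Ideal.span {(ℓ : ℤ)} := by
  have : Fact ℓ.Prime := ⟨hℓ⟩
  have hmax : (Ideal.span {(ℓ : ℤ)}).IsMaximal := Int.ideal_span_isMaximal_of_prime ℓ
  have hle : Ideal.span {(ℓ : ℤ)} ≤ Q.under ℤ := by
    rw [Ideal.span_singleton_le_iff_mem, Ideal.under_def, Ideal.mem_comap]
    simpa using hℓQ
  have hne : Q.under ℤ ≠ ⊤ := by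
    have : (Q.under ℤ).IsPrime := inferInstance
    exact this.ne_top
  exact (hmax.eq_of_le hne hle).symm

omit [NumberField L] in
theorem x9a_card_quot_under {ℓ : ℕ} (hℓ : ℓ.Prime) {Q : Ideal (𝓞 L)} (hQ : Q.IsPrime)
    (hℓQ : (ℓ : 𝓞 L) ∈ Q) : Nat.card (ℤ ⧸ Q.under ℤ) = ℓ := by
  rw [x9a_under_int hℓ hQ hℓQ]
  exact Int.card_ideal_quot ℓ

/-- Existence of a Frobenius element at a prime `Q` of `𝓞 L` over `ℓ`. -/
theorem x9a_exists_frob [IsGalois ℚ L] {ℓ : ℕ} (hℓ : ℓ.Prime) {Q : Ideal (𝓞 L)}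
    (hQ : Q.IsPrime) (hℓQ : (ℓ : 𝓞 L) ∈ Q) : ∃ φ : L ≃ₐ[ℚ] L, IsFrobAt φ Q ℓ := by
  have hQ0 : Q ≠ ⊥ := x9a_ne_bot_of_natCast_mem hℓ hℓQ
  have : Finite (𝓞 L ⧸ Q) := Ideal.finiteQuotientOfFreeOfNeBot Q hQ0
  obtain ⟨σ, hσ⟩ := IsArithFrobAt.exists_of_isInvariant ℤ (L ≃ₐ[ℚ] L) Q
  refine ⟨σ, fun x => ?_⟩
  have h := hσ x
  rw [x9a_card_quot_under hℓ hQ hℓQ] at h
  exact ⟨_, h, rfl⟩

omit [NumberField L] in
theorem x9a_natCast_not_mem {ℓ : ℕ} (hℓ : ℓ.Prime) {Q : Ideal (𝓞 L)}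
    (hQ : Q.IsPrime) (hℓQ : (ℓ : 𝓞 L) ∈ Q) {m : ℕ} (hmℓ : ¬ ℓ ∣ m) : (m : 𝓞 L) ∉ Q := by
  intro hm
  have hcop : Nat.Coprime ℓ m := (Nat.Prime.coprime_iff_not_dvd hℓ).mpr hmℓ
  have h1 : ((Nat.gcd ℓ m : ℤ) : 𝓞 L) ∈ Q := by
    rw [Nat.gcd_eq_gcd_ab]
    push_cast
    exact Q.add_mem (Q.mul_mem_right _ hℓQ) (Q.mul_mem_right _ hm)
  rw [hcop] at h1
  apply hQ.ne_top
  rw [Ideal.eq_top_iff_one]
  simpa using h1

/-- A Frobenius element at a prime over `ℓ` raises roots of unity of order prime to `ℓ` to the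
`ℓ`-th power. -/
theorem x9a_frob_root [IsGalois ℚ L] {ℓ : ℕ} (hℓ : ℓ.Prime) {Q : Ideal (𝓞 L)}
    (hQ : Q.IsPrime) (hℓQ : (ℓ : 𝓞 L) ∈ Q) {φ : L ≃ₐ[ℚ] L} (hφ : IsFrobAt φ Q ℓ)
    {ζ : L} {m : ℕ} (hm : m ≠ 0) (hζ : ζ ^ m = 1) (hmℓ : ¬ ℓ ∣ m) : φ ζ = ζ ^ ℓ := by
  have hint : IsIntegral ℤ ζ := by
    refine ⟨Polynomial.X ^ m - 1, Polynomial.monic_X_pow_sub_C 1 hm, ?_⟩
    simp [hζ]
  set z : 𝓞 L := ⟨ζ, hint⟩ with hz
  have hzm : z ^ m = 1 := by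
    apply RingOfIntegers.ext
    show (ζ : L) ^ m = 1
    exact hζ
  have hF : (MulSemiringAction.toAlgHom ℤ (𝓞 L) φ).IsArithFrobAt Q := by
    intro x
    obtain ⟨y, hy, hxy⟩ := hφ x
    rw [x9a_card_quot_under hℓ hQ hℓQ]
    have : (MulSemiringAction.toAlgHom ℤ (𝓞 L) φ) x - x ^ ℓ = y := by
      apply RingOfIntegers.ext
      rw [← hxy]
      rfl
    rw [this]
    exact hy
  have h := hF.apply_of_pow_eq_one hzm (x9a_natCast_not_mem hℓ hQ hℓQ hmℓ)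
  rw [x9a_card_quot_under hℓ hQ hℓQ] at h
  have h2 := congrArg (fun w : 𝓞 L => (w : L)) h
  exact h2

end frob

section f3

variable {L : Type} [Field L] [NumberField L] {ζ : L} {p : ℕ}

theorem x9a_pow_apply_root {φ : L ≃ₐ[ℚ] L} {ℓ : ℕ} (hφ : φ ζ = ζ ^ ℓ) (n : ℕ) :
    (φ ^ n) ζ = ζ ^ (ℓ ^ n) := by
  induction n with
  | zero => simp
  | succ n ih =>
    rw [pow_succ', AlgEquiv.mul_apply, ih, map_pow, hφ, ← pow_mul, pow_succ']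

/-- `φ ^ f` fixes `ζ`, where `f` is the order of `ℓ` modulo `p`. -/
theorem x9a_pow_orderOf_apply (hp : p.Prime) (hζ : IsPrimitiveRoot ζ p) {φ : L ≃ₐ[ℚ] L} {ℓ : ℕ}
    (hφ : φ ζ = ζ ^ ℓ) : (φ ^ orderOf (ℓ : ZMod p)) ζ = ζ := by
  rw [x9a_pow_apply_root hφ]
  have h1 : ((ℓ ^ orderOf (ℓ : ZMod p) : ℕ) : ZMod p) = ((1 : ℕ) : ZMod p) := by
    rw [Nat.cast_pow, pow_orderOf_eq_one, Nat.cast_one]
  rw [ZMod.natCast_eq_natCast_iff'] at h1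
  have h2 := hζ.pow_eq_one
  rw [← Nat.mod_add_div (ℓ ^ orderOf (ℓ : ZMod p)) p, pow_add, pow_mul, h2, one_pow, mul_one, h1,
    Nat.mod_eq_of_lt hp.one_lt, pow_one]

/-- An automorphism fixing `ζ` has order dividing `p`. -/
theorem x9a_pow_card_eq_one [IsGalois ℚ L]
    (hcard : Nat.card {τ : L ≃ₐ[ℚ] L // τ ζ = ζ} = p) {τ : L ≃ₐ[ℚ] L} (hτ : τ ζ = ζ) :
    τ ^ p = 1 := by
  have hmem : τ ∈ (ℚ⟮ζ⟯).fixingSubgroup := (x9a_mem_fixingSubgroup_iff ζ τ).mpr hτ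
  have hc : Nat.card (ℚ⟮ζ⟯).fixingSubgroup = p := by
    rw [← hcard]
    exact Nat.card_congr (Equiv.subtypeEquivRight fun τ => x9a_mem_fixingSubgroup_iff ζ τ)
  have h1 : (⟨τ, hmem⟩ : (ℚ⟮ζ⟯).fixingSubgroup) ^ p = 1 := by
    rw [← hc]
    exact pow_card_eq_one'
  exact congrArg Subtype.val h1

/-- **(F3)**: if `ℓ ≢ 1 mod p`, the `f`-th power of a Frobenius at `ℓ` is trivial. -/
theorem x9a_frob_pow_eq_one [IsGalois ℚ L] (hp : p.Prime) (hζ : IsPrimitiveRoot ζ p)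
    (hcard : Nat.card {τ : L ≃ₐ[ℚ] L // τ ζ = ζ} = p)
    (hconj : ∀ (g τ : L ≃ₐ[ℚ] L) (k : ℕ), τ ζ = ζ → g ζ = ζ ^ k → g⁻¹ * τ * g = τ ^ k)
    {ℓ : ℕ} (hℓ : 0 < ℓ) (hℓ1 : ℓ % p ≠ 1) {φ : L ≃ₐ[ℚ] L} (hφ : φ ζ = ζ ^ ℓ) :
    φ ^ orderOf (ℓ : ZMod p) = 1 := by
  set τ := φ ^ orderOf (ℓ : ZMod p) with hτdef
  have hτ : τ ζ = ζ := x9a_pow_orderOf_apply hp hζ hφ
  have h1 : φ⁻¹ * τ * φ = τ ^ ℓ := hconj φ τ ℓ hτ hφ
  have h2 : φ⁻¹ * τ * φ = τ := by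
    rw [hτdef, mul_assoc, ← pow_succ, pow_succ', ← mul_assoc, inv_mul_cancel, one_mul]
  have h3 : τ ^ ℓ = τ := h1.symm.trans h2
  have h4 : τ ^ p = 1 := x9a_pow_card_eq_one hcard hτ
  have h5 : τ ^ (ℓ - 1) = 1 := by
    have : τ ^ (ℓ - 1) * τ = 1 * τ := by
      rw [← pow_succ, Nat.sub_add_cancel hℓ, h3, one_mul]
    exact mul_right_cancel this
  have h6 : orderOf τ ∣ Nat.gcd (ℓ - 1) p :=
    Nat.dvd_gcd (orderOf_dvd_of_pow_eq_one h5) (orderOf_dvd_of_pow_eq_one h4)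
  have h7 : Nat.gcd (ℓ - 1) p = 1 := by
    rw [Nat.gcd_comm]
    refine (Nat.Prime.coprime_iff_not_dvd hp).mpr ?_
    intro hd
    apply hℓ1
    obtain ⟨c, hc⟩ := hd
    have : ℓ = 1 + p * c := by omega
    rw [this, Nat.add_mul_mod_self_left, Nat.mod_eq_of_lt hp.one_lt]
  rw [h7, Nat.dvd_one, orderOf_eq_one_iff] at h6
  exact h6

end f3

section partB


/-- A finite domain all of whose elements satisfy `y ^ n = y` has at most `n` elements. -/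
theorem x9a_card_le_of_pow_eq {F : Type*} [CommRing F] [IsDomain F] [Finite F] {n : ℕ}
    (hn : 1 < n) (h : ∀ y : F, y ^ n = y) : Nat.card F ≤ n := by
  classical
  have := Fintype.ofFinite F
  have hdeg : (Polynomial.X ^ n - Polynomial.X : Polynomial F).natDegree = n := by
    have h1 : (Polynomial.X : Polynomial F).degree < (Polynomial.X ^ n : Polynomial F).degree := by
      rw [Polynomial.degree_X_pow, Polynomial.degree_X]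
      exact_mod_cast hn
    rw [Polynomial.natDegree_eq_of_degree_eq (Polynomial.degree_sub_eq_left_of_degree_lt h1),
      Polynomial.natDegree_X_pow]
  have hne : (Polynomial.X ^ n - Polynomial.X : Polynomial F) ≠ 0 := by
    intro h0
    rw [h0, Polynomial.natDegree_zero] at hdeg
    omega
  have hsub : (Finset.univ : Finset F).val ⊆ (Polynomial.X ^ n - Polynomial.X : Polynomial F).roots := by
    intro y _
    rw [Polynomial.mem_roots hne, Polynomial.IsRoot, Polynomial.eval_sub, Polynomial.eval_pow,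
      Polynomial.eval_X, h y, sub_self]
  have := Polynomial.card_le_degree_of_subset_roots hsub
  rw [hdeg, Finset.card_univ] at this
  rwa [Nat.card_eq_fintype_card]

variable {L : Type} [Field L] [NumberField L]

theorem x9a_mk_frob {ℓ : ℕ} {Q : Ideal (𝓞 L)} {φ : L ≃ₐ[ℚ] L} (hφ : IsFrobAt φ Q ℓ) (x : 𝓞 L) :
    Ideal.Quotient.mk Q (φ • x) = (Ideal.Quotient.mk Q x) ^ ℓ := by
  obtain ⟨y, hy, hxy⟩ := hφ x
  have h1 : φ • x - x ^ ℓ = y := by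
    apply RingOfIntegers.ext
    rw [← hxy]
    rfl
  rw [← map_pow, ← sub_eq_zero, ← map_sub, h1]
  exact Ideal.Quotient.eq_zero_iff_mem.mpr hy

theorem x9a_mk_frob_pow {ℓ : ℕ} {Q : Ideal (𝓞 L)} {φ : L ≃ₐ[ℚ] L} (hφ : IsFrobAt φ Q ℓ)
    (n : ℕ) (x : 𝓞 L) :
    Ideal.Quotient.mk Q ((φ ^ n) • x) = (Ideal.Quotient.mk Q x) ^ (ℓ ^ n) := by
  induction n generalizing x with
  | zero => simp
  | succ n ih =>
    rw [pow_succ', mul_smul, x9a_mk_frob hφ, ih, ← pow_mul, pow_succ]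

/-- If the `f`-th power of a Frobenius at `Q` is trivial, the residue field of `Q` has at most
`ℓ ^ f` elements. -/
theorem x9a_absNorm_le {ℓ : ℕ} (hℓ : ℓ.Prime) {Q : Ideal (𝓞 L)} (hQ : Q.IsPrime)
    (hℓQ : (ℓ : 𝓞 L) ∈ Q) {φ : L ≃ₐ[ℚ] L} (hφ : IsFrobAt φ Q ℓ) {f : ℕ} (hf : f ≠ 0)
    (hφf : φ ^ f = 1) : Ideal.absNorm Q ≤ ℓ ^ f := by
  have hQ0 : Q ≠ ⊥ := x9a_ne_bot_of_natCast_mem hℓ hℓQ
  have : Finite (𝓞 L ⧸ Q) := Ideal.finiteQuotientOfFreeOfNeBot Q hQ0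
  have : IsDomain (𝓞 L ⧸ Q) := Ideal.Quotient.isDomain Q
  rw [Ideal.absNorm_apply, Submodule.cardQuot_apply]
  refine x9a_card_le_of_pow_eq (Nat.one_lt_pow hf hℓ.one_lt) fun y => ?_
  obtain ⟨x, rfl⟩ := Ideal.Quotient.mk_surjective y
  rw [← x9a_mk_frob_pow hφ, hφf, one_smul]


end partB

section partB3


theorem x9a_absNorm_cyclo (K : Type) [Field K] [NumberField K] (p ℓ : ℕ) [NeZero p]
    [IsCyclotomicExtension {p} ℚ K] (hℓ : ℓ.Prime) (hℓp : ¬ ℓ ∣ p) (q : Ideal (𝓞 K))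
    (hq : q.IsPrime) (hℓq : (ℓ : 𝓞 K) ∈ q) :
    Ideal.absNorm q = ℓ ^ orderOf (ℓ : ZMod p) := by
  have : Fact ℓ.Prime := ⟨hℓ⟩
  have : q.LiesOver (Ideal.span {(ℓ : ℤ)}) := ⟨(x9a_under_int hℓ hq hℓq).symm⟩
  rw [← Ideal.pow_inertiaDeg ℓ q, IsCyclotomicExtension.Rat.inertiaDeg_eq_of_not_dvd ℓ K q hℓp]

theorem x9a_orderOf_ne_zero {p ℓ : ℕ} (hp : p.Prime) (hℓ : ℓ.Prime) (hℓp : ℓ ≠ p) :
    orderOf (ℓ : ZMod p) ≠ 0 := by
  have : Fact p.Prime := ⟨hp⟩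
  have h0 : (ℓ : ZMod p) ≠ 0 := by
    intro h
    rw [ZMod.natCast_eq_zero_iff] at h
    exact hℓp ((Nat.prime_dvd_prime_iff_eq hp hℓ).mp h).symm
  have h1 : (ℓ : ZMod p) ^ (p - 1) = 1 := ZMod.pow_card_sub_one_eq_one h0
  have hpos : 0 < p - 1 := by have := hp.two_le; omega
  exact (orderOf_pos_iff.mpr (isOfFinOrder_iff_pow_eq_one.mpr ⟨p - 1, hpos, h1⟩)).ne'

variable {L : Type} [Field L] [NumberField L] {ζ : L} {p : ℕ}

theorem x9a_natCast_mem_under {ℓ : ℕ} {Q : Ideal (𝓞 L)} (hℓQ : (ℓ : 𝓞 L) ∈ Q) :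
    (ℓ : 𝓞 ℚ⟮ζ⟯) ∈ Q.under (𝓞 ℚ⟮ζ⟯) := by
  rw [Ideal.under_def, Ideal.mem_comap, map_natCast]
  exact hℓQ


/-- **(B)**: if the `f`-th power of a Frobenius at `Q` (over `ℓ ≠ p`) is trivial, `f` the order
of `ℓ` mod `p`, then the prime of `ℚ(ζ)` below `Q` is the relative norm of `Q`. -/
theorem x9a_relNorm_eq (hp : p.Prime) (hζ : IsPrimitiveRoot ζ p) {ℓ : ℕ} (hℓ : ℓ.Prime)
    (hℓp : ℓ ≠ p) {Q : Ideal (𝓞 L)} (hQ : Q.IsPrime) (hℓQ : (ℓ : 𝓞 L) ∈ Q) {φ : L ≃ₐ[ℚ] L}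
    (hφ : IsFrobAt φ Q ℓ) (hφf : φ ^ orderOf (ℓ : ZMod p) = 1) :
    Ideal.relNorm (𝓞 ℚ⟮ζ⟯) Q = Q.under (𝓞 ℚ⟮ζ⟯) := by
  have : NeZero p := ⟨hp.ne_zero⟩
  have hcyc : IsCyclotomicExtension {p} ℚ ℚ⟮ζ⟯ :=
    hζ.intermediateField_adjoin_isCyclotomicExtension ℚ
  have hf : orderOf (ℓ : ZMod p) ≠ 0 := x9a_orderOf_ne_zero hp hℓ hℓp
  have hℓp' : ¬ ℓ ∣ p := fun h => hℓp ((Nat.prime_dvd_prime_iff_eq hℓ hp).mp h)
  have hq : (Q.under (𝓞 ℚ⟮ζ⟯)).IsPrime := inferInstance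
  have hqn : Ideal.absNorm (Q.under (𝓞 ℚ⟮ζ⟯)) = ℓ ^ orderOf (ℓ : ZMod p) :=
    x9a_absNorm_cyclo ℚ⟮ζ⟯ p ℓ hℓ hℓp' _ hq (x9a_natCast_mem_under hℓQ)
  have hQn : Ideal.absNorm Q ≤ ℓ ^ orderOf (ℓ : ZMod p) := x9a_absNorm_le hℓ hQ hℓQ hφ hf hφf
  obtain ⟨s, hs⟩ := Ideal.exists_relNorm_eq_pow_of_isPrime Q (Q.under (𝓞 ℚ⟮ζ⟯))
  have h1 : Ideal.absNorm Q = (ℓ ^ orderOf (ℓ : ZMod p)) ^ s := by
    rw [← Ideal.absNorm_relNorm (R := 𝓞 ℚ⟮ζ⟯), hs, map_pow, hqn]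
  have h2 : 1 < ℓ ^ orderOf (ℓ : ZMod p) := Nat.one_lt_pow hf hℓ.one_lt
  have hs1 : s = 1 := by
    rcases Nat.lt_or_ge s 1 with h | h
    · have hs0 : s = 0 := by omega
      rw [hs0, pow_zero, Ideal.absNorm_eq_one_iff] at h1
      exact absurd h1 hQ.ne_top
    · rcases Nat.lt_or_ge 1 s with h' | h'
      · have := Nat.pow_lt_pow_right h2 h'
        rw [pow_one, ← h1] at this
        omega
      · omega
  rw [hs, hs1, pow_one]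

end partB3

section partD

/-- **(D)**: in the `p`-th cyclotomic field, a prime over `p` is principal. -/
theorem x9a_isPrincipal_of_mem (K : Type) [Field K] [NumberField K] (p : ℕ) (hp : p.Prime)
    [IsCyclotomicExtension {p} ℚ K] (q : Ideal (𝓞 K)) (hq : q.IsPrime)
    (hpq : (p : 𝓞 K) ∈ q) : q.IsPrincipal := by
  have : Fact p.Prime := ⟨hp⟩
  have : NeZero p := ⟨hp.ne_zero⟩
  have : q.LiesOver (Ideal.span {(p : ℤ)}) := ⟨(x9a_under_int hp hq hpq).symm⟩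
  have h := IsCyclotomicExtension.Rat.eq_span_zeta_sub_one_of_liesOver' p K
    (IsCyclotomicExtension.zeta_spec p ℚ K) q
  rw [h]
  exact ⟨⟨_, rfl⟩⟩

variable {L : Type} [Field L] [NumberField L] {ζ : L} {p : ℕ}

theorem x9a_mk0_mem_of_mem (hp : p.Prime) (hζ : IsPrimitiveRoot ζ p) (q : (Ideal (𝓞 ℚ⟮ζ⟯))⁰)
    (hq : (q : Ideal (𝓞 ℚ⟮ζ⟯)).IsPrime) (hpq : (p : 𝓞 ℚ⟮ζ⟯) ∈ (q : Ideal (𝓞 ℚ⟮ζ⟯))) :
    ClassGroup.mk0 q ∈ normClasses ℚ⟮ζ⟯ L := by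
  have : NeZero p := ⟨hp.ne_zero⟩
  have hcyc : IsCyclotomicExtension {p} ℚ ℚ⟮ζ⟯ :=
    hζ.intermediateField_adjoin_isCyclotomicExtension ℚ
  have h1 : ClassGroup.mk0 q = 1 :=
    (ClassGroup.mk0_eq_one_iff q.2).mpr (x9a_isPrincipal_of_mem ℚ⟮ζ⟯ p hp _ hq hpq)
  rw [h1]
  exact nnp_one_mem_normClasses

end partD

end Fermat.Agent.S14
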