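import Fermat.Agent.S14.CrossingInterface

/-!
# S14 (X7): functoriality of norm classes (helper53)
-/

set_option autoImplicit false

open NumberField
open scoped nonZeroDivisors

namespace Fermat.Agent.S14

section

variable {K E : Type} [Field K] [NumberField K] [Field E] [NumberField E] [Algebra K E]

/-- The relative norm of a nonzero ideal, as a nonzero ideal. -/
noncomputable def nfRelNorm0 (I : (Ideal (𝓞 E))⁰) : (Ideal (𝓞 K))⁰ :=
  ⟨Ideal.relNorm (𝓞 K) (I : Ideal (𝓞 E)), mem_nonZeroDivisors_of_ne_zero (by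
    intro h
    exact nonZeroDivisors.coe_ne_zero I (Ideal.relNorm_eq_bot_iff.mp h))⟩

@[simp] theorem nf_coe_relNorm0 (I : (Ideal (𝓞 E))⁰) :
    ((nfRelNorm0 (K := K) I : (Ideal (𝓞 K))⁰) : Ideal (𝓞 K)) =
      Ideal.relNorm (𝓞 K) (I : Ideal (𝓞 E)) := rfl

/-- The relative norm is compatible with ideal classes. -/
theorem nf_mk0_relNorm0_eq_of_mk0_eq {I B : (Ideal (𝓞 E))⁰}
    (h : ClassGroup.mk0 I = ClassGroup.mk0 B) :
    ClassGroup.mk0 (nfRelNorm0 (K := K) I) = ClassGroup.mk0 (nfRelNorm0 (K := K) B) := by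
  rw [ClassGroup.mk0_eq_mk0_iff] at h ⊢
  obtain ⟨x, y, hx, hy, hxy⟩ := h
  refine ⟨Algebra.intNorm (𝓞 K) (𝓞 E) x, Algebra.intNorm (𝓞 K) (𝓞 E) y, ?_, ?_, ?_⟩
  · exact Algebra.intNorm_ne_zero.mpr hx
  · exact Algebra.intNorm_ne_zero.mpr hy
  · have := congrArg (Ideal.relNorm (𝓞 K)) hxy
    rw [map_mul, map_mul, Ideal.relNorm_singleton, Ideal.relNorm_singleton] at this
    exact this

theorem nf_mk0_eq_of_coe_eq {I J : (Ideal (𝓞 K))⁰} (h : (I : Ideal (𝓞 K)) = J) :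
    ClassGroup.mk0 I = ClassGroup.mk0 J := by
  rw [Subtype.ext h]

end

/-- **(X7)** -/
theorem normFunct : NormFunct := by
  intro K L E M _ _ _ _ _ _ _ _ _ _ _ _ _ _ _ I J hI hJ
  obtain ⟨A, B, hB, hBI⟩ := hI
  -- the class of `J = relNorm I` is the class of `relNorm B`
  have h1 : ClassGroup.mk0 J = ClassGroup.mk0 (nfRelNorm0 (K := K) B) := by
    have hJ' : J = nfRelNorm0 (K := K) I := Subtype.ext hJ
    rw [hJ']
    exact nf_mk0_relNorm0_eq_of_mk0_eq hBI.symm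
  -- `relNorm B = relNorm_{M/K} A = relNorm_{L/K} (relNorm_{M/L} A)`
  refine ⟨nfRelNorm0 (K := L) A, nfRelNorm0 (K := K) B, ?_, h1.symm⟩
  rw [nf_coe_relNorm0, nf_coe_relNorm0, hB, Ideal.relNorm_relNorm, Ideal.relNorm_relNorm]

end Fermat.Agent.S14
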