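import Fermat.Agent.S14.NormClassesSubgroup
import Fermat.Agent.S14.NormFunct

/-!
# S14 (X2): reciprocity for a "cyclotomic" unramified extension (helper53)

`eRecImp : ERecImp`, i.e. `SecondIneqKummer → CoprimeRep → ERec`.

Sketch.  The hypothesis (ha) and `CoprimeRep` show that `I ↦ χ (N I)` is well defined on ideal
classes (of ideals prime to `r`): if `I ∼ J`, choose `B` prime to `r` in the inverse class; then
`I B` and `J B` are principal and prime to `r`, so `χ (N I) χ (N B) = 1 = χ (N J) χ (N B)`.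
By the second inequality and `NormClassesSubgroup` the quotient of the class group by the norm
classes has order `1` or `p`.  If `I` is prime to `r` with `χ (N I) = 1` and its class is not a
norm class, this class generates the quotient, hence every ideal prime to `r` is equivalent to
`I ^ k * N_{M/E} A` with `A` prime to `r`, and `χ` is trivial on all norms, against (hc).
-/

set_option autoImplicit false

open NumberField
open scoped nonZeroDivisors

namespace Fermat.Agent.S14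

section

variable {E : Type} [Field E] [NumberField E] {r : ℕ} (χ : DirichletCharacter ℂ r)

theorem erec_chi_ne_zero {n : ℕ} (hn : n.Coprime r) : χ (n : ZMod r) ≠ 0 :=
  (((ZMod.isUnit_iff_coprime n r).mpr hn).map χ).ne_zero

/-- `I ↦ χ (N I)` is well defined on ideal classes. -/
theorem erec_wd (hcr : CoprimeRep) (hr : r ≠ 0)
    (ha : ∀ β : 𝓞 E, (Ideal.absNorm (Ideal.span {β})).Coprime r →
      χ ((Ideal.absNorm (Ideal.span {β}) : ℕ) : ZMod r) = 1)
    {I J : (Ideal (𝓞 E))⁰} (hI : (Ideal.absNorm (I : Ideal (𝓞 E))).Coprime r)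
    (hJ : (Ideal.absNorm (J : Ideal (𝓞 E))).Coprime r)
    (h : ClassGroup.mk0 I = ClassGroup.mk0 J) :
    χ ((Ideal.absNorm (I : Ideal (𝓞 E)) : ℕ) : ZMod r) =
      χ ((Ideal.absNorm (J : Ideal (𝓞 E)) : ℕ) : ZMod r) := by
  obtain ⟨B, hB, hBr⟩ := hcr E r hr (ClassGroup.mk0 I)⁻¹
  have key : ∀ A : (Ideal (𝓞 E))⁰, (Ideal.absNorm (A : Ideal (𝓞 E))).Coprime r →
      ClassGroup.mk0 A = ClassGroup.mk0 I →
      χ ((Ideal.absNorm (A : Ideal (𝓞 E)) : ℕ) : ZMod r) *
        χ ((Ideal.absNorm (B : Ideal (𝓞 E)) : ℕ) : ZMod r) = 1 := by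
    intro A hA hAI
    have h1 : ClassGroup.mk0 (A * B) = 1 := by
      rw [map_mul, hB, hAI, mul_inv_cancel]
    rw [ClassGroup.mk0_eq_one_iff] at h1
    obtain ⟨β, hβ⟩ := h1
    rw [Submonoid.coe_mul, Ideal.submodule_span_eq] at hβ
    have h2 : (Ideal.absNorm (Ideal.span {β})).Coprime r := by
      rw [← hβ, map_mul]
      exact Nat.Coprime.mul_left hA hBr
    have h3 := ha β h2
    rw [← hβ, map_mul, Nat.cast_mul, map_mul] at h3
    exact h3
  have hI' := key I hI rfl
  have hJ' := key J hJ h.symm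
  exact mul_right_cancel₀ (erec_chi_ne_zero χ hBr) (hI'.trans hJ'.symm)

end

/-- **(X2)** -/
theorem eRecImp : ERecImp := by
  intro h2 hcr p r E M _ _ _ _ _ _ ζ χ hp hp2 hr hζ hdeg hunr ha hb hc I hI hχI
  have : Fact p.Prime := ⟨hp⟩
  obtain ⟨N, hN, hNpow⟩ := normClassesSubgroup E M
  have hidx : N.index ≤ p :=
    h2 p E M ζ N hp hp2 hζ hdeg hunr (fun c hc => by
      have : c ∈ (N : Set (ClassGroup (𝓞 E))) := by rw [hN]; exact hc
      exact this)
  have hmemN : ∀ c, c ∈ N ↔ c ∈ normClasses E M := by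
    intro c
    rw [← hN]
    rfl
  rw [← hmemN]
  by_contra hg
  -- the class of `I` generates the quotient by `N`
  set g : ClassGroup (𝓞 E) ⧸ N := QuotientGroup.mk (s := N) (ClassGroup.mk0 I) with hgdef
  have hg1 : g ≠ 1 := by
    intro h
    exact hg ((QuotientGroup.eq_one_iff _).mp h)
  have hgp : g ^ p = 1 := by
    rw [hgdef, ← QuotientGroup.mk_pow, QuotientGroup.eq_one_iff, ← hdeg]
    exact hNpow _
  have hord : orderOf g = p := orderOf_eq_prime hgp hg1
  have hcard : Nat.card (ClassGroup (𝓞 E) ⧸ N) = p := by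
    apply le_antisymm
    · rw [← Subgroup.index_eq_card]
      exact hidx
    · rw [← hord]
      exact orderOf_le_card
  obtain ⟨I₀, hI₀, hχI₀⟩ := hc
  have hr0 : r ≠ 0 := hr.ne_zero
  have hI₀0 : I₀ ≠ ⊥ := by
    rintro rfl
    rw [Ideal.absNorm_bot, Nat.coprime_zero_left] at hI₀
    exact hr.one_lt.ne' hI₀
  let I₀' : (Ideal (𝓞 E))⁰ := ⟨I₀, mem_nonZeroDivisors_of_ne_zero hI₀0⟩
  obtain ⟨k, hk⟩ := mem_powers_of_prime_card hcard hg1
    (g' := QuotientGroup.mk (s := N) (ClassGroup.mk0 I₀'))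
  have hk' : g ^ k = QuotientGroup.mk (s := N) (ClassGroup.mk0 I₀') := hk
  rw [hgdef, ← QuotientGroup.mk_pow, QuotientGroup.eq] at hk'
  rw [hmemN] at hk'
  obtain ⟨A, J, hJA, hJ⟩ := hk'
  -- a representative of the class of `A` prime to `r`
  obtain ⟨A', hA', hA'r⟩ := hcr M r hr0 (ClassGroup.mk0 A)
  have hJ' : ClassGroup.mk0 (nfRelNorm0 (K := E) A') = ClassGroup.mk0 J := by
    rw [nf_mk0_relNorm0_eq_of_mk0_eq hA']
    exact nf_mk0_eq_of_coe_eq (by rw [nf_coe_relNorm0, hJA])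
  have hcls : ClassGroup.mk0 I₀' = ClassGroup.mk0 (I ^ k * nfRelNorm0 (K := E) A') := by
    rw [map_mul, map_pow, hJ', hJ, mul_inv_cancel_left]
  have hnorm : Ideal.absNorm ((I ^ k * nfRelNorm0 (K := E) A' : (Ideal (𝓞 E))⁰) : Ideal (𝓞 E)) =
      Ideal.absNorm (I : Ideal (𝓞 E)) ^ k * Ideal.absNorm (A' : Ideal (𝓞 M)) := by
    rw [Submonoid.coe_mul, SubmonoidClass.coe_pow, map_mul, map_pow, nf_coe_relNorm0,
      Ideal.absNorm_relNorm]
  have hcop : (Ideal.absNorm ((I ^ k * nfRelNorm0 (K := E) A' : (Ideal (𝓞 E))⁰) :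
      Ideal (𝓞 E))).Coprime r := by
    rw [hnorm]
    exact Nat.Coprime.mul_left (Nat.Coprime.pow_left k hI) hA'r
  have hwd := erec_wd χ hcr hr0 ha (I := I₀') hI₀ hcop hcls
  rw [hnorm, Nat.cast_mul, Nat.cast_pow, map_mul, map_pow, hχI, one_pow, one_mul,
    hb _ hA'r] at hwd
  exact hχI₀ hwd

end Fermat.Agent.S14
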