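/-
S14, (X9) final assembly, part (E) (helper26): the class of a prime `q` of `ℚ(ζ)` above
`ℓ ≡ 1 mod p` with nontrivial Frobenius is a norm class (from `Compare` and Stickelberger).
-/
import Mathlib
import Fermat.Agent.S14.CrossingInterface

set_option autoImplicit false

open NumberField IntermediateField
open scoped nonZeroDivisors

namespace Fermat.Agent.S14

section

variable {p : ℕ} {L : Type} [Field L] [NumberField L] [IsGalois ℚ L] {ζ : L}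

/-- (E1) the Galois conjugates of `ζ`. -/
theorem x9b_exists_aut_pow (hp : p.Prime) (hζ : IsPrimitiveRoot ζ p) {s : ℕ} (hs : s.Coprime p) :
    ∃ h : L ≃ₐ[ℚ] L, h ζ = ζ ^ s := by
  have : NeZero p := ⟨hp.ne_zero⟩
  have hirr : Irreducible (Polynomial.cyclotomic p ℚ) :=
    Polynomial.cyclotomic.irreducible_rat hp.pos
  have hζs : IsPrimitiveRoot (ζ ^ s) p := hζ.pow_of_coprime s hs
  have h1 := hζ.minpoly_eq_cyclotomic_of_irreducible hirr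
  have h2 := hζs.minpoly_eq_cyclotomic_of_irreducible hirr
  have halg : IsAlgebraic ℚ (ζ ^ s) := Algebra.IsAlgebraic.isAlgebraic _
  refine minpoly.exists_algEquiv_of_root halg ?_
  rw [← h2, h1]
  exact minpoly.aeval ℚ ζ

/-- The prime `h⁻¹(Q)`. -/
noncomputable def x9b_conj (h : L ≃ₐ[ℚ] L) (Q : Ideal (𝓞 L)) : Ideal (𝓞 L) :=
  Q.comap (galRestrict ℤ ℚ L (𝓞 L) h)

theorem x9b_mem_conj (h : L ≃ₐ[ℚ] L) (Q : Ideal (𝓞 L)) (x : 𝓞 L) :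
    x ∈ x9b_conj h Q ↔ galRestrict ℤ ℚ L (𝓞 L) h x ∈ Q := Iff.rfl

theorem x9b_coe_galRestrict (h : L ≃ₐ[ℚ] L) (x : 𝓞 L) :
    ((galRestrict ℤ ℚ L (𝓞 L) h x : 𝓞 L) : L) = h (x : L) :=
  algebraMap_galRestrict_apply ℤ h x

instance x9b_conj_isPrime (h : L ≃ₐ[ℚ] L) (Q : Ideal (𝓞 L)) [Q.IsPrime] :
    (x9b_conj h Q).IsPrime :=
  Ideal.comap_isPrime _ _

theorem x9b_natCast_mem_conj (h : L ≃ₐ[ℚ] L) (Q : Ideal (𝓞 L)) (ℓ : ℕ) (hℓ : (ℓ : 𝓞 L) ∈ Q) :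
    (ℓ : 𝓞 L) ∈ x9b_conj h Q := by
  rw [x9b_mem_conj, map_natCast]
  exact hℓ

/-- (E2) conjugating the Frobenius. -/
theorem x9b_isFrobAt_conj
    (hconj : ∀ (g τ : L ≃ₐ[ℚ] L) (k : ℕ), τ ζ = ζ → g ζ = ζ ^ k → g⁻¹ * τ * g = τ ^ k)
    {τ h : L ≃ₐ[ℚ] L} {s ℓ : ℕ} {Q : Ideal (𝓞 L)} (hτ : τ ζ = ζ) (hh : h ζ = ζ ^ s)
    (hF : IsFrobAt τ Q ℓ) : IsFrobAt (τ ^ s) (x9b_conj h Q) ℓ := by
  intro x
  obtain ⟨y, hy, hxy⟩ := hF (galRestrict ℤ ℚ L (𝓞 L) h x)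
  refine ⟨galRestrict ℤ ℚ L (𝓞 L) h⁻¹ y, ?_, ?_⟩
  · rw [x9b_mem_conj, ← AlgEquiv.mul_apply, ← map_mul, mul_inv_cancel, map_one]
    exact hy
  · rw [x9b_coe_galRestrict, ← hxy, x9b_coe_galRestrict, ← hconj h τ s hτ hh, map_sub, map_pow]
    simp [AlgEquiv.mul_apply]

omit [IsGalois ℚ L] in
/-- `τ` fixes `ℚ(ζ)` pointwise iff it fixes `ζ`. -/
theorem x9b_fix_adjoin {τ : L ≃ₐ[ℚ] L} (hτ : τ ζ = ζ) (x : L) (hx : x ∈ ℚ⟮ζ⟯) : τ x = x := by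
  induction hx using IntermediateField.adjoin_induction with
  | mem x hx =>
    rw [Set.mem_singleton_iff] at hx
    rw [hx, hτ]
  | algebraMap x => exact τ.commutes x
  | add x y _ _ hx hy => rw [map_add, hx, hy]
  | inv x _ hx => rw [map_inv₀, hx]
  | mul x y _ _ hx hy => rw [map_mul, hx, hy]

/-- `Gal(L/ℚ(ζ))` is the stabiliser of `ζ`. -/
noncomputable def x9b_galEquiv : (L ≃ₐ[ℚ⟮ζ⟯] L) ≃ {τ : L ≃ₐ[ℚ] L // τ ζ = ζ} where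
  toFun σ := ⟨σ.restrictScalars ℚ, by
    have := σ.commutes ⟨ζ, mem_adjoin_simple_self ℚ ζ⟩
    exact this⟩
  invFun τ := { (τ.1 : L ≃ₐ[ℚ] L) with
    commutes' := fun x => x9b_fix_adjoin τ.2 x.1 x.2 }
  left_inv σ := by ext x; rfl
  right_inv τ := by ext x; rfl

theorem x9b_finrank (hcard : Nat.card {τ : L ≃ₐ[ℚ] L // τ ζ = ζ} = p) :
    Module.finrank ℚ⟮ζ⟯ L = p := by
  rw [← IsGalois.card_aut_eq_finrank, Nat.card_congr x9b_galEquiv, hcard]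

omit [IsGalois ℚ L] in
/-- `ζ` as an element of `ℚ(ζ)`. -/
theorem x9b_zetaK_prim (hζ : IsPrimitiveRoot ζ p) :
    IsPrimitiveRoot (AdjoinSimple.gen ℚ ζ) p := by
  refine IsPrimitiveRoot.of_map_of_injective (f := algebraMap ℚ⟮ζ⟯ L) ?_
    (algebraMap ℚ⟮ζ⟯ L).injective
  rw [AdjoinSimple.algebraMap_gen]
  exact hζ

/-- The automorphism of `ℚ(ζ)` induced by an automorphism of `L`. -/
theorem x9b_isGalois (hp : p.Prime) (hζ : IsPrimitiveRoot ζ p) : IsGalois ℚ ℚ⟮ζ⟯ := by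
  have : NeZero p := ⟨hp.ne_zero⟩
  have h1 : IsCyclotomicExtension {p} ℚ ℚ⟮ζ⟯ :=
    hζ.intermediateField_adjoin_isCyclotomicExtension ℚ
  exact IsCyclotomicExtension.isGalois {p} ℚ ℚ⟮ζ⟯

noncomputable def x9b_res (hp : p.Prime) (hζ : IsPrimitiveRoot ζ p) (h : L ≃ₐ[ℚ] L) :
    ℚ⟮ζ⟯ ≃ₐ[ℚ] ℚ⟮ζ⟯ :=
  haveI : IsGalois ℚ ℚ⟮ζ⟯ := x9b_isGalois hp hζ
  h.restrictNormal ℚ⟮ζ⟯

theorem x9b_res_commutes (hp : p.Prime) (hζ : IsPrimitiveRoot ζ p) (h : L ≃ₐ[ℚ] L)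
    (x : ℚ⟮ζ⟯) : ((x9b_res hp hζ h x : ℚ⟮ζ⟯) : L) = h (x : L) := by
  have : IsGalois ℚ ℚ⟮ζ⟯ := x9b_isGalois hp hζ
  exact h.restrictNormal_commutes ℚ⟮ζ⟯ x

theorem x9b_res_gen (hp : p.Prime) (hζ : IsPrimitiveRoot ζ p) {h : L ≃ₐ[ℚ] L} {s : ℕ}
    (hh : h ζ = ζ ^ s) :
    x9b_res hp hζ h (AdjoinSimple.gen ℚ ζ) = (AdjoinSimple.gen ℚ ζ) ^ s := by
  apply Subtype.ext
  rw [x9b_res_commutes]
  simp only [AdjoinSimple.coe_gen, SubmonoidClass.coe_pow]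
  exact hh

/-- (E4) the prime of `ℚ(ζ)` below `h⁻¹(Q)`. -/
theorem x9b_under_conj (hp : p.Prime) (hζ : IsPrimitiveRoot ζ p) (h : L ≃ₐ[ℚ] L)
    (Q : Ideal (𝓞 L)) :
    (x9b_conj h Q).under (𝓞 ℚ⟮ζ⟯) =
      Ideal.comap (galRestrict ℤ ℚ ℚ⟮ζ⟯ (𝓞 ℚ⟮ζ⟯) (x9b_res hp hζ h)) (Q.under (𝓞 ℚ⟮ζ⟯)) := by
  ext x
  have key : galRestrict ℤ ℚ L (𝓞 L) h (algebraMap (𝓞 ℚ⟮ζ⟯) (𝓞 L) x) =
      algebraMap (𝓞 ℚ⟮ζ⟯) (𝓞 L) (galRestrict ℤ ℚ ℚ⟮ζ⟯ (𝓞 ℚ⟮ζ⟯) (x9b_res hp hζ h) x) := by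
    apply RingOfIntegers.ext
    rw [x9b_coe_galRestrict]
    show h ((x : ℚ⟮ζ⟯) : L) =
      (((galRestrict ℤ ℚ ℚ⟮ζ⟯ (𝓞 ℚ⟮ζ⟯) (x9b_res hp hζ h) x : 𝓞 ℚ⟮ζ⟯) : ℚ⟮ζ⟯) : L)
    have h2 : ((galRestrict ℤ ℚ ℚ⟮ζ⟯ (𝓞 ℚ⟮ζ⟯) (x9b_res hp hζ h) x : 𝓞 ℚ⟮ζ⟯) : ℚ⟮ζ⟯) =
        x9b_res hp hζ h (x : ℚ⟮ζ⟯) := algebraMap_galRestrict_apply ℤ (x9b_res hp hζ h) x
    rw [h2, x9b_res_commutes]
  simp only [Ideal.under_def, Ideal.mem_comap, x9b_mem_conj, key]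

end

theorem x9b_sum_Icc_mul_two (m : ℕ) : (∑ s ∈ Finset.Icc 1 m, s) * 2 = m * (m + 1) := by
  induction m with
  | zero => simp
  | succ m ih =>
    rw [Finset.sum_Icc_succ_top (by omega), add_mul, ih]
    ring

/-- `1 + 2 + ⋯ + (p-1)/2` is prime to `p`. -/
theorem x9b_sum_coprime {p : ℕ} (hp : p.Prime) (hp3 : 3 ≤ p) :
    Nat.Coprime (∑ s ∈ Finset.Icc 1 ((p - 1) / 2), s) p := by
  rw [Nat.coprime_comm, hp.coprime_iff_not_dvd]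
  intro hdvd
  have h2 : p ∣ (∑ s ∈ Finset.Icc 1 ((p - 1) / 2), s) * 2 := Dvd.dvd.mul_right hdvd 2
  rw [x9b_sum_Icc_mul_two] at h2
  have hm : (p - 1) / 2 < p := by omega
  have hm0 : 0 < (p - 1) / 2 := by omega
  rcases (Nat.Prime.dvd_mul hp).mp h2 with h | h
  · have := Nat.le_of_dvd (by omega) h
    omega
  · have := Nat.le_of_dvd (by omega) h
    omega

/-- In a group, `x ^ a ∈ N`, `x ^ p ∈ N` and `gcd(a, p) = 1` imply `x ∈ N`. -/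
theorem x9b_mem_of_pow_mem {G : Type*} [Group G] (N : Subgroup G) {x : G} {a b : ℕ}
    (hab : Nat.Coprime a b) (ha : x ^ a ∈ N) (hb : x ^ b ∈ N) : x ∈ N := by
  have h1 : (x ^ a) ^ (Nat.gcdA a b) * (x ^ b) ^ (Nat.gcdB a b) = x := by
    rw [← zpow_natCast, ← zpow_natCast, ← zpow_mul, ← zpow_mul, ← zpow_add,
      ← Nat.gcd_eq_gcd_ab, hab.gcd_eq_one, Nat.cast_one, zpow_one]
  rw [← h1]
  exact N.mul_mem (N.zpow_mem ha _) (N.zpow_mem hb _)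

/-- (E): the class of a prime of `ℚ(ζ)` above `ℓ ≡ 1 mod p` with nontrivial Frobenius is a norm
class. -/
theorem x9b_mem_normClasses (hS : StickelbergerJacobi) (hN : NormClassesSubgroup) (hC : Compare)
    (p : ℕ) (L : Type) [Field L] [NumberField L] [IsGalois ℚ L] (ζ : L) (hp : p.Prime)
    (hp3 : 3 ≤ p) (hζ : IsPrimitiveRoot ζ p)
    (hcard : Nat.card {τ : L ≃ₐ[ℚ] L // τ ζ = ζ} = p)
    (hconj : ∀ (g τ : L ≃ₐ[ℚ] L) (k : ℕ), τ ζ = ζ → g ζ = ζ ^ k → g⁻¹ * τ * g = τ ^ k)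
    (hunr : ∀ (P : Ideal (𝓞 L)), P.IsPrime → P ≠ ⊥ →
      ∀ τ : L ≃ₐ[ℚ] L, τ ζ = ζ → InInertia τ P → τ = 1)
    (ℓ : ℕ) (Q : Ideal (𝓞 L)) (τ : L ≃ₐ[ℚ] L) (q : (Ideal (𝓞 ℚ⟮ζ⟯))⁰)
    (hℓ : ℓ.Prime) (hℓ1 : ℓ % p = 1) (hQ : Q.IsPrime) (hℓQ : (ℓ : 𝓞 L) ∈ Q) (hτ : τ ζ = ζ)
    (hτ1 : τ ≠ 1) (hF : IsFrobAt τ Q ℓ)
    (hq : (q : Ideal (𝓞 ℚ⟮ζ⟯)) = Q.under (𝓞 ℚ⟮ζ⟯)) :
    ClassGroup.mk0 q ∈ normClasses ℚ⟮ζ⟯ L := by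
  classical
  obtain ⟨N, hNc, hNpow⟩ := hN ℚ⟮ζ⟯ L
  have hfin : Module.finrank ℚ⟮ζ⟯ L = p := x9b_finrank hcard
  rw [← hNc, SetLike.mem_coe]
  -- the automorphisms `h s`, `h s ζ = ζ ^ s`
  have hex : ∀ s : ℕ, ∃ h : L ≃ₐ[ℚ] L, 0 < s → s < p → h ζ = ζ ^ s := by
    intro s
    by_cases hs : 0 < s ∧ s < p
    · have hcop : s.Coprime p :=
        (Nat.coprime_comm.mp ((Nat.Prime.coprime_iff_not_dvd hp).mpr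
          (fun hd => absurd (Nat.le_of_dvd hs.1 hd) (by omega))))
      obtain ⟨h, hh⟩ := x9b_exists_aut_pow hp hζ hcop
      exact ⟨h, fun _ _ => hh⟩
    · exact ⟨1, fun h0 h1 => absurd ⟨h0, h1⟩ hs⟩
  choose h hh using hex
  -- the primes `q_s`
  have hℓK : (ℓ : 𝓞 ℚ⟮ζ⟯) ≠ 0 := Nat.cast_ne_zero.mpr hℓ.ne_zero
  have hmem : ∀ s : ℕ, (ℓ : 𝓞 ℚ⟮ζ⟯) ∈ (x9b_conj (h s) Q).under (𝓞 ℚ⟮ζ⟯) := by
    intro s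
    rw [Ideal.under_def, Ideal.mem_comap, map_natCast]
    exact x9b_natCast_mem_conj (h s) Q ℓ hℓQ
  have hne : ∀ s : ℕ, (x9b_conj (h s) Q).under (𝓞 ℚ⟮ζ⟯) ∈ (Ideal (𝓞 ℚ⟮ζ⟯))⁰ := by
    intro s
    rw [mem_nonZeroDivisors_iff_ne_zero]
    intro h0
    have := hmem s
    rw [h0] at this
    exact hℓK this
  set qs : ℕ → (Ideal (𝓞 ℚ⟮ζ⟯))⁰ := fun s => ⟨(x9b_conj (h s) Q).under (𝓞 ℚ⟮ζ⟯), hne s⟩ with hqs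
  -- `Compare`
  have hcmp : ∀ s ∈ Finset.Icc 1 ((p - 1) / 2),
      ∃ c ∈ N, ClassGroup.mk0 (qs s) = ClassGroup.mk0 q ^ s * c := by
    intro s hs
    rw [Finset.mem_Icc] at hs
    have hs0 : 0 < s := by omega
    have hsp : s < p := by omega
    have hps : ¬ p ∣ s := fun hd => absurd (Nat.le_of_dvd hs0 hd) (by omega)
    have := hQ
    obtain ⟨c, hc, hcs⟩ := hC p L ζ hp hp3 hζ hcard hconj hunr ℓ s Q (x9b_conj (h s) Q) τ q (qs s)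
      hℓ hℓ1 hps hQ inferInstance hℓQ (x9b_natCast_mem_conj (h s) Q ℓ hℓQ) hτ hτ1 hF
      (x9b_isFrobAt_conj hconj hτ (hh s hs0 hsp) hF) hq rfl
    refine ⟨c, ?_, hcs⟩
    rw [← SetLike.mem_coe, hNc]
    exact hc
  choose! c hcN hcs using hcmp
  -- Stickelberger
  have hp2 : p ≠ 2 := by omega
  have hNZ : NeZero p := ⟨hp.ne_zero⟩
  have hcyc : IsCyclotomicExtension {p} ℚ ℚ⟮ζ⟯ :=
    hζ.intermediateField_adjoin_isCyclotomicExtension ℚ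
  have hqprime : (q : Ideal (𝓞 ℚ⟮ζ⟯)).IsPrime := by
    rw [hq]
    have := hQ
    infer_instance
  have hℓq : (ℓ : 𝓞 ℚ⟮ζ⟯) ∈ (q : Ideal (𝓞 ℚ⟮ζ⟯)) := by
    rw [hq, Ideal.under_def, Ideal.mem_comap, map_natCast]
    exact hℓQ
  have hSt := hS p ℚ⟮ζ⟯ (AdjoinSimple.gen ℚ ζ) (fun s => x9b_res hp hζ (h s)) ℓ
    (q : Ideal (𝓞 ℚ⟮ζ⟯)) hp hp2 (x9b_zetaK_prim hζ)
    (fun s h0 h1 => x9b_res_gen hp hζ (hh s h0 h1)) hℓ hℓ1 hqprime hℓq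
  have hprod : (∏ s ∈ Finset.Icc 1 ((p - 1) / 2), ClassGroup.mk0 (qs s)) = 1 := by
    rw [← map_prod]
    have hmem' : ((∏ s ∈ Finset.Icc 1 ((p - 1) / 2), qs s : (Ideal (𝓞 ℚ⟮ζ⟯))⁰) :
        Ideal (𝓞 ℚ⟮ζ⟯)) ∈ (Ideal (𝓞 ℚ⟮ζ⟯))⁰ := (∏ s ∈ Finset.Icc 1 ((p - 1) / 2), qs s).2
    have := (ClassGroup.mk0_eq_one_iff hmem').mpr (by
      rw [Submonoid.coe_finsetProd]
      have heq : ∀ s ∈ Finset.Icc 1 ((p - 1) / 2), ((qs s : (Ideal (𝓞 ℚ⟮ζ⟯))⁰) :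
          Ideal (𝓞 ℚ⟮ζ⟯)) = Ideal.comap (galRestrict ℤ ℚ ℚ⟮ζ⟯ (𝓞 ℚ⟮ζ⟯) (x9b_res hp hζ (h s)))
            (q : Ideal (𝓞 ℚ⟮ζ⟯)) := by
        intro s _
        rw [hq, ← x9b_under_conj hp hζ (h s) Q]
      rw [Finset.prod_congr rfl heq]
      exact hSt)
    exact this
  -- conclusion
  have hpow : ClassGroup.mk0 q ^ (∑ s ∈ Finset.Icc 1 ((p - 1) / 2), s) ∈ N := by
    have h1 : (∏ s ∈ Finset.Icc 1 ((p - 1) / 2), ClassGroup.mk0 (qs s)) =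
        ClassGroup.mk0 q ^ (∑ s ∈ Finset.Icc 1 ((p - 1) / 2), s) *
          ∏ s ∈ Finset.Icc 1 ((p - 1) / 2), c s := by
      rw [← Finset.prod_pow_eq_pow_sum, ← Finset.prod_mul_distrib]
      exact Finset.prod_congr rfl fun s hs => hcs s hs
    rw [hprod] at h1
    have h2 : ClassGroup.mk0 q ^ (∑ s ∈ Finset.Icc 1 ((p - 1) / 2), s) =
        (∏ s ∈ Finset.Icc 1 ((p - 1) / 2), c s)⁻¹ := eq_inv_of_mul_eq_one_left h1.symm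
    rw [h2]
    exact N.inv_mem (N.prod_mem fun s hs => hcN s hs)
  have hpp : ClassGroup.mk0 q ^ p ∈ N := by
    have := hNpow (ClassGroup.mk0 q)
    rwa [hfin] at this
  exact x9b_mem_of_pow_mem N (x9b_sum_coprime hp hp3) hpow hpp

/-- (E) in the form consumed by the final assembly. -/
theorem x9b_mem_of_frob_ne_one (hS : StickelbergerJacobi) (hN : NormClassesSubgroup)
    (hC : Compare)
    (p : ℕ) (L : Type) [Field L] [NumberField L] [IsGalois ℚ L] (ζ : L) (hp : p.Prime)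
    (hp3 : 3 ≤ p) (hζ : IsPrimitiveRoot ζ p)
    (hcard : Nat.card {τ : L ≃ₐ[ℚ] L // τ ζ = ζ} = p)
    (hconj : ∀ (g τ : L ≃ₐ[ℚ] L) (k : ℕ), τ ζ = ζ → g ζ = ζ ^ k → g⁻¹ * τ * g = τ ^ k)
    (hunr : ∀ (P : Ideal (𝓞 L)), P.IsPrime → P ≠ ⊥ →
      ∀ τ : L ≃ₐ[ℚ] L, τ ζ = ζ → InInertia τ P → τ = 1)
    (ℓ : ℕ) (Q : Ideal (𝓞 L)) (τ : L ≃ₐ[ℚ] L) (q : (Ideal (𝓞 ℚ⟮ζ⟯))⁰)
    (hℓ : ℓ.Prime) (hℓ1 : ℓ % p = 1) (hQ : Q.IsPrime) (hℓQ : (ℓ : 𝓞 L) ∈ Q) (hτ : τ ζ = ζ)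
    (hτ1 : τ ≠ 1) (hF : IsFrobAt τ Q ℓ)
    (hq : (q : Ideal (𝓞 ℚ⟮ζ⟯)) = Q.under (𝓞 ℚ⟮ζ⟯)) :
    ∃ N : Subgroup (ClassGroup (𝓞 ℚ⟮ζ⟯)),
      (N : Set (ClassGroup (𝓞 ℚ⟮ζ⟯))) = normClasses ℚ⟮ζ⟯ L ∧ ClassGroup.mk0 q ∈ N := by
  obtain ⟨N, hNc, -⟩ := hN ℚ⟮ζ⟯ L
  refine ⟨N, hNc, ?_⟩
  rw [← SetLike.mem_coe, hNc]
  exact x9b_mem_normClasses hS hN hC p L ζ hp hp3 hζ hcard hconj hunr ℓ Q τ q hℓ hℓ1 hQ hℓQ hτ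
    hτ1 hF hq

end Fermat.Agent.S14
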