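import Fermat.Agent.S14.FinalA
import Fermat.Agent.S14.FinalB

/-!
# S14 (X9): the final assembly

`FinalAssembly : FirstIneq → StickelbergerJacobi → NormClassesSubgroup → Compare → NoExt`
(helper13; part (E) is helper26's `x9b_mem_normClasses`).
-/

set_option autoImplicit false

open NumberField IntermediateField
open scoped nonZeroDivisors

namespace Fermat.Agent.S14

section

variable {L : Type} [Field L] [NumberField L] [IsGalois ℚ L] {ζ : L} {p : ℕ}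

/-- Every nonzero prime of `ℚ(ζ)` has its class in `normClasses ℚ(ζ) L`. -/
theorem x9a_prime_mem_normClasses (hS : StickelbergerJacobi) (hN : NormClassesSubgroup)
    (hC : Compare) (hp : p.Prime) (hp3 : 3 ≤ p) (hζ : IsPrimitiveRoot ζ p)
    (hcard : Nat.card {τ : L ≃ₐ[ℚ] L // τ ζ = ζ} = p)
    (hconj : ∀ (g τ : L ≃ₐ[ℚ] L) (k : ℕ), τ ζ = ζ → g ζ = ζ ^ k → g⁻¹ * τ * g = τ ^ k)
    (hunr : ∀ (P : Ideal (𝓞 L)), P.IsPrime → P ≠ ⊥ →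
      ∀ τ : L ≃ₐ[ℚ] L, τ ζ = ζ → InInertia τ P → τ = 1)
    (q : (Ideal (𝓞 ℚ⟮ζ⟯))⁰) (hq : (q : Ideal (𝓞 ℚ⟮ζ⟯)).IsPrime) :
    ClassGroup.mk0 q ∈ normClasses ℚ⟮ζ⟯ L := by
  have hq0 : (q : Ideal (𝓞 ℚ⟮ζ⟯)) ≠ ⊥ := mem_nonZeroDivisors_iff_ne_zero.mp q.2
  have : NeZero (q : Ideal (𝓞 ℚ⟮ζ⟯)) := ⟨hq0⟩
  have hqmax : (q : Ideal (𝓞 ℚ⟮ζ⟯)).IsMaximal := hq.isMaximal hq0
  -- the rational prime below `q`
  set ℓ : ℕ := Ideal.absNorm (Ideal.under ℤ (q : Ideal (𝓞 ℚ⟮ζ⟯))) with hℓdef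
  have hℓ : ℓ.Prime := Nat.absNorm_under_prime (q : Ideal (𝓞 ℚ⟮ζ⟯))
  have hℓq : (ℓ : 𝓞 ℚ⟮ζ⟯) ∈ (q : Ideal (𝓞 ℚ⟮ζ⟯)) := Int.absNorm_under_mem _
  by_cases hℓp : ℓ = p
  · rw [hℓp] at hℓq
    exact x9a_mk0_mem_of_mem hp hζ q hq hℓq
  -- a prime of `L` above `q`
  obtain ⟨Q, hQmax, hQover⟩ :=
    Ideal.exists_maximal_ideal_liesOver_of_isIntegral (S := 𝓞 L) (q : Ideal (𝓞 ℚ⟮ζ⟯))
  have hQ : Q.IsPrime := hQmax.isPrime
  have hqQ : (q : Ideal (𝓞 ℚ⟮ζ⟯)) = Q.under (𝓞 ℚ⟮ζ⟯) := hQover.over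
  have hℓQ : (ℓ : 𝓞 L) ∈ Q := by
    have h1 := hℓq
    rw [hqQ, Ideal.under_def, Ideal.mem_comap, map_natCast] at h1
    exact h1
  have hQ0 : Q ≠ ⊥ := x9a_ne_bot_of_natCast_mem hℓ hℓQ
  obtain ⟨φ, hφ⟩ := x9a_exists_frob hℓ hQ hℓQ
  have hℓp' : ¬ ℓ ∣ p := fun h => hℓp ((Nat.prime_dvd_prime_iff_eq hℓ hp).mp h)
  have hφζ : φ ζ = ζ ^ ℓ := x9a_frob_root hℓ hQ hℓQ hφ hp.ne_zero hζ.pow_eq_one hℓp'
  by_cases hφf : φ ^ orderOf (ℓ : ZMod p) = 1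
  · -- trivial Frobenius: `q` is the norm of `Q`
    have hrel := x9a_relNorm_eq hp hζ hℓ hℓp hQ hℓQ hφ hφf
    exact ⟨⟨Q, mem_nonZeroDivisors_iff_ne_zero.mpr hQ0⟩, q, hqQ.trans hrel.symm, rfl⟩
  · -- nontrivial Frobenius: `ℓ ≡ 1 mod p`, use (E)
    have hℓ1 : ℓ % p = 1 := by
      by_contra h
      exact hφf (x9a_frob_pow_eq_one hp hζ hcard hconj hℓ.pos h hφζ)
    have hone : (ℓ : ZMod p) = 1 := by
      have h1 : ((ℓ : ℕ) : ZMod p) = ((1 : ℕ) : ZMod p) := by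
        rw [ZMod.natCast_eq_natCast_iff', hℓ1, Nat.mod_eq_of_lt hp.one_lt]
      simpa using h1
    have hord : orderOf (ℓ : ZMod p) = 1 := by rw [hone, orderOf_one]
    have hφ1 : φ ≠ 1 := by
      intro h
      apply hφf
      rw [h, one_pow]
    have hφfix : φ ζ = ζ := by
      have := x9a_pow_orderOf_apply hp hζ hφζ
      rwa [hord, pow_one] at this
    exact x9b_mem_normClasses hS hN hC p L ζ hp hp3 hζ hcard hconj hunr ℓ Q φ q hℓ hℓ1 hQ hℓQ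
      hφfix hφ1 hφ hqQ

end

/-- **(X9)**: the final assembly of `NoExt`. -/
theorem finalAssembly : FinalAssembly := by
  intro hF hS hN hC p L _ _ _ ζ hp hp3 hζ hcard hconj hunr
  have hfin : Module.finrank ℚ⟮ζ⟯ L = p := (x9a_finrank ζ).trans hcard
  have hU : UnramifiedEverywhere ℚ⟮ζ⟯ L := x9a_unramified ζ hunr
  obtain ⟨c, hc⟩ := hF p ℚ⟮ζ⟯ L hp (by omega) hfin hU
  apply hc
  exact x9a_all_norm_of_primes
    (fun q hq => x9a_prime_mem_normClasses hS hN hC hp hp3 hζ hcard hconj hunr q hq) c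

end Fermat.Agent.S14
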