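import Mathlib
import Fermat.Agent.Lib.Stickelberger.Jacobi
import Fermat.Agent.S14.Interface

set_option autoImplicit false

open NumberField Polynomial Finset

namespace Fermat.Agent.S14

open Fermat.Agent.Stickelberger

attribute [local instance] Ideal.Quotient.field in
/-- **Stickelberger's relation for Jacobi sums** (interface `StickelbergerJacobi`). -/
theorem stickelbergerJacobi : StickelbergerJacobi := by
  intro p K _ _ _ ζ σ ℓ Q hp hp2 hζ hσ hℓ hℓp hQ hℓQ
  have : Fact p.Prime := ⟨hp⟩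
  have : Fact ℓ.Prime := ⟨hℓ⟩
  have := hQ
  have hp3 : 3 ≤ p := by
    have := hp.two_le
    omega
  have hζ' : IsPrimitiveRoot hζ.toInteger p := hζ.toInteger_isPrimitiveRoot
  have hne : ℓ ≠ p := prime_ne_of_mod hp hℓp
  have hQ0 : Q ≠ ⊥ := ne_bot_of_mem Q hℓQ
  have hQmax : Q.IsMaximal := hQ.isMaximal hQ0
  have hfin : Finite (𝓞 K ⧸ Q) := Ideal.finiteQuotientOfFreeOfNeBot Q hQ0
  have hN : Ideal.absNorm Q = ℓ := absNorm_eq_of_mod Q hℓp hℓQ
  have hζπ : IsPrimitiveRoot (Ideal.Quotient.mk Q hζ.toInteger) p :=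
    isPrimitiveRoot_mk Q hζ' hne hℓQ
  have hm : p * (ℓ / p) = @Fintype.card (𝓞 K ⧸ Q) (fintypeQuot Q) - 1 := by
    rw [card_quot Q hN]
    have := Nat.mod_add_div ℓ p
    omega
  -- the automorphisms of `𝓞 K`
  have hτ : ∀ s, 0 < s → s < p →
      galRestrict ℤ ℚ K (𝓞 K) (σ s) hζ.toInteger = hζ.toInteger ^ s := by
    intro s hs hsp
    apply RingOfIntegers.coe_injective
    have h1 := algebraMap_galRestrict_apply ℤ (σ s) hζ.toInteger
    have h2 : (algebraMap (𝓞 K) K) hζ.toInteger = ζ := hζ.coe_toInteger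
    rw [h2, hσ s hs hsp] at h1
    rw [map_pow]
    exact h1.trans (congrArg (· ^ s) h2.symm)
  set J := jac Q hζ' hζπ hm with hJ
  have hnormJ : (Algebra.norm ℤ J).natAbs = ℓ ^ ((p - 1) / 2) :=
    natAbs_norm_jac Q hζ' hζπ hm hp3 hN (galRestrict ℤ ℚ K (𝓞 K) (σ (p - 1)))
      (hτ (p - 1) (by omega) (by omega))
  refine ⟨J, ?_⟩
  rw [Ideal.submodule_span_eq]
  apply prod_eq_span_singleton
  · intro s _
    exact Ideal.comap_isMaximal_of_equiv _
  · intro s hs t ht hst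
    rw [Finset.mem_Icc] at hs ht
    exact comap_ne_comap Q hζπ hN _ _ (by omega) (by omega) hst
      (hτ s (by omega) (by omega)) (hτ t (by omega) (by omega))
  · intro s hs
    rw [Finset.mem_Icc] at hs
    exact jac_mem_comap Q hζ' hζπ hm _ (by omega) (by omega) (hτ s (by omega) (by omega))
  · rw [hnormJ]
    have : ∀ s ∈ Finset.Icc 1 ((p - 1) / 2),
        Ideal.absNorm (Ideal.comap (galRestrict ℤ ℚ K (𝓞 K) (σ s)) Q) = ℓ := by
      intro s _
      rw [← hN, Ideal.absNorm_apply, Ideal.absNorm_apply, Submodule.cardQuot_apply,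
        Submodule.cardQuot_apply]
      refine Nat.card_congr (Ideal.quotientEquiv _ _
        ((galRestrict ℤ ℚ K (𝓞 K) (σ s) : 𝓞 K ≃ₐ[ℤ] 𝓞 K) : 𝓞 K ≃+* 𝓞 K) ?_).toEquiv
      apply le_antisymm
      · intro x hx
        have h1 : (galRestrict ℤ ℚ K (𝓞 K) (σ s)).symm x ∈
            Ideal.comap (galRestrict ℤ ℚ K (𝓞 K) (σ s)) Q := by
          rw [Ideal.mem_comap]
          simpa using hx
        have h2 := Ideal.mem_map_of_mem
          (((galRestrict ℤ ℚ K (𝓞 K) (σ s) : 𝓞 K ≃ₐ[ℤ] 𝓞 K) : 𝓞 K ≃+* 𝓞 K) : 𝓞 K →+* 𝓞 K) h1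
        simpa using h2
      · rw [Ideal.map_le_iff_le_comap]
        intro x hx
        rw [Ideal.mem_comap] at hx ⊢
        simpa using hx
    rw [Finset.prod_congr rfl this, Finset.prod_const, Nat.card_Icc]
    congr 1
  · rw [hnormJ]
    exact pow_ne_zero _ hℓ.ne_zero

end Fermat.Agent.S14
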