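import Fermat.Agent.S14.Crossing.Compare
import Fermat.Agent.S14.Crossing.GamSurj
import Fermat.Agent.S14.Crossing.FinrankEHMH
import Fermat.Agent.S14.Crossing.UnramEHMH
import Fermat.Agent.S14.Crossing.ExistsFrob
import Fermat.Agent.S14.Crossing.CycFrob
import Fermat.Agent.S14.Crossing.SplitIsNorm
import Fermat.Agent.S14.Crossing.ChiNormMH
import Fermat.Agent.S14.Crossing.SplitPrimeEH
import Fermat.Agent.S14.Crossing.NormResidueImp
import Fermat.Agent.S14.Crossing.GamTrivModRImp
import Fermat.Agent.S14.FinalAssembly
import Fermat.Agent.S14.FrontEnd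
import Fermat.Agent.S14.Stickelberger
import Fermat.Agent.S14.AuxPrime
import Fermat.Agent.S14.AuxChar
import Fermat.Agent.S14.ERec
import Fermat.Agent.S14.NormFunct
import Fermat.Agent.S14.CoprimeRep
import Fermat.Agent.S14.NonNormPrime
import Fermat.Agent.S14.NormClassesSubgroup

/-!
# S14: top-level wiring

`ExtVanishingCts p` for all primes `p ≥ 3` from the three remaining inputs:
the first inequality, the second inequality (Kummer case) and the inertia computation at the
auxiliary prime.
-/

set_option autoImplicit false

namespace Fermat.Agent.S14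

/-- `AuxChar` in the form used by `CompareImp`. -/
theorem auxChar : AuxChar := by
  intro p r ℓ ω hp hr hℓ hord hω
  refine auxCharCoprime p r ℓ ω hp hr ?_ hord hω
  rwa [Ne, ZMod.natCast_eq_zero_iff] at hℓ

/-- The crossing argument (H4), given the inertia computation at the auxiliary prime. -/
theorem crossing_of (hI : Cross.InertiaAtR) : Crossing := by
  intro hFirst hSecond hStick
  have hCR := coprimeRep
  have hNN := nonNormPrimeImp hFirst hCR
  have hERec := eRecImp hSecond hCR
  have hCmp : Compare :=
    Cross.compareImp_of Cross.gamSurj Cross.finrankEHMH Cross.unramEHMH Cross.existsFrob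
      Cross.cycFrob Cross.splitIsNorm Cross.chiNormMH Cross.splitPrimeEH
      (Cross.normResidueImp (Cross.gamTrivModRImp hI)) hFirst hERec normFunct auxPrime auxChar
      hCR hNN
  exact finalAssembly hFirst hStick normClassesSubgroup hCmp

/-- S14 from the three remaining inputs. -/
theorem extVanishing_of (hI : Cross.InertiaAtR) (h1 : FirstIneq) (h2 : SecondIneqKummer) :
    ∀ (p : ℕ) [Fact p.Prime], 3 ≤ p → ExtCitation.ExtVanishingCts p :=
  S14FE.frontEnd (crossing_of hI h1 h2 stickelbergerJacobi)

end Fermat.Agent.S14
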