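/-
S14 (ExtVanishingCts p), top bridge (helper56).

`ExtVanishingCts p`  ⇐  `CocycleVanishing p`  ⇐  `CharacterVanishing p`.

* `CocycleVanishing p`  : every twisted cocycle `b : G_ℚ → 𝔽_p` (`b (σ τ) = χ(τ) b(σ) + b(τ)`, `χ` the mod `p`
  cyclotomic character) with open kernel, trivial on inertia outside `p` and a coboundary on every decomposition
  group above `p` is a coboundary.
* `CharacterVanishing p`: every `ψ : G_ℚ → 𝔽_p` that is additive on `ker χ`, satisfies
  `ψ (g h g⁻¹) = χ(g)⁻¹ ψ(h)` for `h ∈ ker χ`, has open kernel, vanishes on inertia outside `p` and on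
  `D_A ∩ ker χ` for every `A` above `p`, vanishes on `ker χ`.
  (Equivalently: there is no cyclic degree `p` extension `L` of `K = ℚ(ζ_p)`, Galois over `ℚ`, with `Gal(K/ℚ)` acting
  on `Gal(L/K)` through the inverse of the cyclotomic character, unramified everywhere and totally split above `p`.)

Both implications are elementary and are proved here without any arithmetic input.
-/
import Mathlib
import Fermat.Prelude.Def_ExtCitation_AdmissibleExtension_v2
import Fermat.Prelude.Def_ExtCitation_KummerBridge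

set_option autoImplicit false

namespace Fermat.Agent.S14Red

open ExtCitation ValuationSubring

/-- The absolute Galois group of `ℚ`. -/
abbrev GQ : Type := AlgebraicClosure ℚ ≃ₐ[ℚ] AlgebraicClosure ℚ

/-- The mod `p` cyclotomic character with values in `ZMod p`. -/
noncomputable def chi (p : ℕ) [Fact p.Prime] (σ : GQ) : ZMod p := ((cycloChar p σ : (ZMod p)ˣ) : ZMod p)

lemma chi_one (p : ℕ) [Fact p.Prime] : chi p 1 = 1 := by
  simp [chi]

lemma chi_mul (p : ℕ) [Fact p.Prime] (σ τ : GQ) : chi p (σ * τ) = chi p σ * chi p τ := by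
  simp [chi, map_mul]

lemma chi_ne_zero (p : ℕ) [Fact p.Prime] (σ : GQ) : chi p σ ≠ 0 :=
  (cycloChar p σ).ne_zero

lemma chi_inv (p : ℕ) [Fact p.Prime] (σ : GQ) : chi p σ⁻¹ = (chi p σ)⁻¹ := by
  have h : chi p σ⁻¹ * chi p σ = 1 := by rw [← chi_mul, inv_mul_cancel, chi_one]
  exact eq_inv_of_mul_eq_one_left h

lemma chi_eq_cycloExp (p : ℕ) [Fact p.Prime] (σ : GQ) : chi p σ = (cycloExp p σ : ZMod p) :=
  coe_cycloChar p σ

/-- (A) every admissible twisted cocycle is a coboundary. -/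
def CocycleVanishing (p : ℕ) [Fact p.Prime] : Prop :=
  ∀ b : GQ → ZMod p,
    (∀ σ τ : GQ, b (σ * τ) = chi p τ * b σ + b τ) →
    IsOpen {σ : GQ | chi p σ = 1 ∧ b σ = 0} →
    (∀ ℓ : ℕ, ℓ.Prime → ℓ ≠ p → ∀ A : ValuationSubring (AlgebraicClosure ℚ), A.LiesOverPrime ℓ →
      ∀ σ ∈ A.inertiaSubgroupIn ℚ, chi p σ = 1 ∧ b σ = 0) →
    (∀ A : ValuationSubring (AlgebraicClosure ℚ), A.LiesOverPrime p →
      ∃ t : ZMod p, ∀ σ ∈ A.decompositionSubgroup ℚ, b σ = (chi p σ - 1) * t) →
    ∃ t : ZMod p, ∀ σ : GQ, b σ = (chi p σ - 1) * t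

/-- (B) every admissible `ω⁻¹`-character of `G_{ℚ(ζ_p)}` is trivial. -/
def CharacterVanishing (p : ℕ) [Fact p.Prime] : Prop :=
  ∀ ψ : GQ → ZMod p,
    (∀ g h : GQ, chi p g = 1 → chi p h = 1 → ψ (g * h) = ψ g + ψ h) →
    (∀ g h : GQ, chi p h = 1 → ψ (g * h * g⁻¹) = (chi p g)⁻¹ * ψ h) →
    IsOpen {σ : GQ | chi p σ = 1 ∧ ψ σ = 0} →
    (∀ ℓ : ℕ, ℓ.Prime → ℓ ≠ p → ∀ A : ValuationSubring (AlgebraicClosure ℚ), A.LiesOverPrime ℓ →
      ∀ σ ∈ A.inertiaSubgroupIn ℚ, chi p σ = 1 ∧ ψ σ = 0) →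
    (∀ A : ValuationSubring (AlgebraicClosure ℚ), A.LiesOverPrime p →
      ∀ σ ∈ A.decompositionSubgroup ℚ, chi p σ = 1 → ψ σ = 0) →
    ∀ σ : GQ, chi p σ = 1 → ψ σ = 0

/-! ### (B) ⇒ (A) -/

section CocycleAlgebra

variable {p : ℕ} [Fact p.Prime] {b : GQ → ZMod p}

lemma cocycle_one (hb : ∀ σ τ : GQ, b (σ * τ) = chi p τ * b σ + b τ) : b 1 = 0 := by
  have h := hb 1 1
  rw [mul_one, chi_one, one_mul] at h
  have : b 1 + b 1 = b 1 + 0 := by rw [add_zero]; exact h.symm
  exact add_left_cancel this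

lemma cocycle_inv (hb : ∀ σ τ : GQ, b (σ * τ) = chi p τ * b σ + b τ) (g : GQ) :
    b g⁻¹ = -((chi p g)⁻¹ * b g) := by
  have h := hb g g⁻¹
  rw [mul_inv_cancel, cocycle_one hb, chi_inv] at h
  exact eq_neg_of_add_eq_zero_right h.symm

lemma cocycle_conj (hb : ∀ σ τ : GQ, b (σ * τ) = chi p τ * b σ + b τ) (g h : GQ)
    (hh : chi p h = 1) : b (g * h * g⁻¹) = (chi p g)⁻¹ * b h := by
  rw [hb (g * h) g⁻¹, hb g h, hh, one_mul, cocycle_inv hb, chi_inv]
  ring

end CocycleAlgebra

theorem cocycleVanishing_of_characterVanishing (p : ℕ) [Fact p.Prime]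
    (H : CharacterVanishing p) : CocycleVanishing p := by
  intro b hb hopen hunr hloc
  -- `b` vanishes on `ker χ`
  have hker : ∀ σ : GQ, chi p σ = 1 → b σ = 0 := by
    refine H b ?_ ?_ hopen hunr ?_
    · intro g h _ hh
      rw [hb g h, hh, one_mul]
    · intro g h hh
      exact cocycle_conj hb g h hh
    · intro A hA σ hσ hχ
      obtain ⟨t, ht⟩ := hloc A hA
      rw [ht σ hσ, hχ, sub_self, zero_mul]
  -- commutation relation
  have hcomm : ∀ σ τ : GQ, (chi p τ - 1) * b σ = (chi p σ - 1) * b τ := by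
    intro σ τ
    -- `σ τ = (τ σ) k` with `k = (τ σ)⁻¹ (σ τ) ∈ ker χ`
    have hk : chi p ((τ * σ)⁻¹ * (σ * τ)) = 1 := by
      rw [chi_mul, chi_inv, chi_mul, chi_mul, mul_comm (chi p τ) (chi p σ)]
      exact inv_mul_cancel₀ (mul_ne_zero (chi_ne_zero p σ) (chi_ne_zero p τ))
    have h1 : b (σ * τ) = b (τ * σ) := by
      have h2 := hb (τ * σ) ((τ * σ)⁻¹ * (σ * τ))
      rw [mul_inv_cancel_left, hk, one_mul, hker _ hk, add_zero] at h2
      exact h2
    rw [hb σ τ, hb τ σ] at h1
    linear_combination h1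
  by_cases hall : ∀ σ : GQ, chi p σ = 1
  · exact ⟨0, fun σ => by rw [hker σ (hall σ), mul_zero]⟩
  · push Not at hall
    obtain ⟨σ₀, hσ₀⟩ := hall
    have hne : chi p σ₀ - 1 ≠ 0 := sub_ne_zero.mpr hσ₀
    refine ⟨(chi p σ₀ - 1)⁻¹ * b σ₀, fun τ => ?_⟩
    have h := hcomm σ₀ τ
    field_simp
    linear_combination -h

/-! ### (A) ⇒ `ExtVanishingCts p` -/

section Admissible

variable {p : ℕ} [Fact p.Prime]
variable {V : Type} [AddCommGroup V] [Module (ZMod p) V]
  [DistribMulAction GQ V] [SMulCommClass GQ (ZMod p) V]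

/-- The structure of an admissible extension in coordinates. -/
theorem exists_coordinates (C : Submodule (ZMod p) V) (hadm : IsAdmissibleExtensionCts p V C) :
    ∃ (c v₀ : V), c ∈ C ∧ c ≠ 0 ∧ v₀ ∉ C ∧ (∀ x ∈ C, ∃ a : ZMod p, x = a • c) ∧
      (∀ x : V, ∃ a e : ZMod p, x = a • v₀ + e • c) ∧
      (∀ a e : ZMod p, a • v₀ + e • c = 0 → a = 0 ∧ e = 0) := by
  classical
  have hp1 : 1 < p := (Fact.out : p.Prime).one_lt
  have : Finite V := Nat.finite_of_card_ne_zero (by
    rw [hadm.card_total]; exact pow_ne_zero 2 (Fact.out : p.Prime).ne_zero)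
  haveI : Fintype V := Fintype.ofFinite V
  have : Module.Finite (ZMod p) V := Module.Finite.of_finite
  -- dimensions
  have hcardV : Nat.card V = p ^ Module.finrank (ZMod p) V := by
    have := Module.natCard_eq_pow_finrank (K := ZMod p) (V := V)
    simpa [Nat.card_zmod] using this
  have hcardC : Nat.card C = p ^ Module.finrank (ZMod p) C := by
    have := Module.natCard_eq_pow_finrank (K := ZMod p) (V := C)
    simpa [Nat.card_zmod] using this
  have hV2 : Module.finrank (ZMod p) V = 2 := by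
    have h := hadm.card_total
    rw [hcardV] at h
    exact Nat.pow_right_injective hp1 h
  have hC1 : Module.finrank (ZMod p) C = 1 := by
    have h := hadm.card_sub
    rw [hcardC] at h
    exact Nat.pow_right_injective hp1 (by simpa using h)
  obtain ⟨c', hc'0, hc'⟩ := finrank_eq_one_iff'.mp hC1
  set c : V := (c' : V) with hc
  have hcC : c ∈ C := c'.2
  have hc0 : c ≠ 0 := fun h => hc'0 (Subtype.ext h)
  have hspanC : ∀ x ∈ C, ∃ a : ZMod p, x = a • c := by
    intro x hx
    obtain ⟨a, ha⟩ := hc' ⟨x, hx⟩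
    exact ⟨a, by simpa [hc] using (congrArg Subtype.val ha).symm⟩
  -- a vector outside `C`
  have hCtop : C ≠ ⊤ := by
    intro h
    have : Module.finrank (ZMod p) C = Module.finrank (ZMod p) V := by
      rw [h, finrank_top]
    omega
  obtain ⟨v₀, -, hv₀⟩ := SetLike.exists_of_lt (lt_top_iff_ne_top.mpr hCtop)
  -- linear independence of `v₀, c`
  have hind : ∀ a e : ZMod p, a • v₀ + e • c = 0 → a = 0 ∧ e = 0 := by
    intro a e h
    have ha : a = 0 := by
      by_contra ha
      apply hv₀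
      have : v₀ = (-(a⁻¹ * e)) • c := by
        have h2 : a • v₀ = -(e • c) := eq_neg_of_add_eq_zero_left h
        calc v₀ = a⁻¹ • (a • v₀) := by rw [smul_smul, inv_mul_cancel₀ ha, one_smul]
          _ = a⁻¹ • (-(e • c)) := by rw [h2]
          _ = (-(a⁻¹ * e)) • c := by rw [smul_neg, smul_smul, neg_smul]
      rw [this]
      exact C.smul_mem _ hcC
    subst ha
    rw [zero_smul, zero_add] at h
    exact ⟨rfl, (smul_eq_zero.mp h).resolve_right hc0⟩
  have hli : LinearIndependent (ZMod p) ![v₀, c] := by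
    rw [LinearIndependent.pair_iff]
    intro s t hst
    exact hind s t hst
  have hspan : Submodule.span (ZMod p) (Set.range ![v₀, c]) = ⊤ := by
    apply hli.span_eq_top_of_card_eq_finrank'
    rw [hV2]
    simp
  have hgen : ∀ x : V, ∃ a e : ZMod p, x = a • v₀ + e • c := by
    intro x
    have hx : x ∈ Submodule.span (ZMod p) (Set.range ![v₀, c]) := by rw [hspan]; trivial
    have hr : Set.range ![v₀, c] = {v₀, c} := by
      ext y
      simp only [Matrix.range_cons, Matrix.range_empty, Set.union_empty, Set.mem_union,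
        Set.mem_singleton_iff, Set.mem_insert_iff]
    rw [hr, Submodule.mem_span_pair] at hx
    obtain ⟨a, e, h⟩ := hx
    exact ⟨a, e, h.symm⟩
  exact ⟨c, v₀, hcC, hc0, hv₀, hspanC, hgen, hind⟩

end Admissible

theorem extVanishingCts_of_cocycleVanishing (p : ℕ) [Fact p.Prime]
    (H : CocycleVanishing p) : ExtVanishingCts p := by
  intro V _ _ _ _ C hadm
  classical
  obtain ⟨c, v₀, hcC, hc0, hv₀, hspanC, hgen, hind⟩ := exists_coordinates C hadm
  -- the cocycle
  have hex : ∀ σ : GQ, ∃ a : ZMod p, σ • v₀ - chi p σ • v₀ = a • c := by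
    intro σ
    have h := hadm.cyclo_quot σ v₀
    rw [← chi_eq_cycloExp] at h
    exact hspanC _ h
  choose b hb using hex
  have hσv : ∀ σ : GQ, σ • v₀ = chi p σ • v₀ + b σ • c := fun σ => by
    rw [← hb σ]; abel
  have hσc : ∀ σ : GQ, σ • c = c := fun σ => hadm.fixed_sub σ c hcC
  have hact : ∀ (σ : GQ) (a e : ZMod p),
      σ • (a • v₀ + e • c) = (a * chi p σ) • v₀ + (a * b σ + e) • c := by
    intro σ a e
    rw [smul_add, smul_comm σ a v₀, smul_comm σ e c, hσc, hσv, smul_add, smul_smul, smul_smul,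
      add_smul]
    abel
  have huniq : ∀ a e a' e' : ZMod p, a • v₀ + e • c = a' • v₀ + e' • c → a = a' ∧ e = e' := by
    intro a e a' e' h
    have h0 : (a - a') • v₀ + (e - e') • c = 0 := by
      rw [sub_smul, sub_smul]
      have := sub_eq_zero.mpr h
      rw [← this]; abel
    obtain ⟨h1, h2⟩ := hind _ _ h0
    exact ⟨sub_eq_zero.mp h1, sub_eq_zero.mp h2⟩
  -- cocycle identity
  have hcoc : ∀ σ τ : GQ, b (σ * τ) = chi p τ * b σ + b τ := by
    intro σ τ
    have h1 : (σ * τ) • v₀ = chi p (σ * τ) • v₀ + b (σ * τ) • c := hσv _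
    have h2 : (σ * τ) • v₀ = (chi p τ * chi p σ) • v₀ + (chi p τ * b σ + b τ) • c := by
      rw [mul_smul, hσv τ, hact]
    rw [h1] at h2
    exact (huniq _ _ _ _ h2).2
  -- the kernel of the action
  have hfix_iff : ∀ σ : GQ, (∀ v : V, σ • v = v) ↔ (chi p σ = 1 ∧ b σ = 0) := by
    intro σ
    constructor
    · intro h
      have h1 := h v₀
      rw [hσv] at h1
      have h2 : chi p σ • v₀ + b σ • c = (1 : ZMod p) • v₀ + (0 : ZMod p) • c := by
        rw [h1, one_smul, zero_smul, add_zero]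
      exact huniq _ _ _ _ h2
    · rintro ⟨h1, h2⟩ v
      obtain ⟨a, e, rfl⟩ := hgen v
      rw [hact, h1, h2, mul_one, mul_zero, zero_add]
  have hopen : IsOpen {σ : GQ | chi p σ = 1 ∧ b σ = 0} := by
    have := hadm.open_kernel
    convert this using 1
    ext σ
    exact (hfix_iff σ).symm
  have hunr : ∀ ℓ : ℕ, ℓ.Prime → ℓ ≠ p → ∀ A : ValuationSubring (AlgebraicClosure ℚ),
      A.LiesOverPrime ℓ → ∀ σ ∈ A.inertiaSubgroupIn ℚ, chi p σ = 1 ∧ b σ = 0 := by
    intro ℓ hℓ hℓp A hA σ hσ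
    exact (hfix_iff σ).mp (hadm.unramified_outside ℓ hℓ hℓp A hA σ hσ)
  have hloc : ∀ A : ValuationSubring (AlgebraicClosure ℚ), A.LiesOverPrime p →
      ∃ t : ZMod p, ∀ σ ∈ A.decompositionSubgroup ℚ, b σ = (chi p σ - 1) * t := by
    intro A hA
    obtain ⟨C', hC'st, hC'⟩ := hadm.locally_split A hA
    -- a vector of `C'` of the form `v₀ + t c`
    have hv₀top : v₀ ∈ C ⊔ C' := by rw [hC'.sup_eq_top]; trivial
    obtain ⟨x, hx, y, hy, hxy⟩ := Submodule.mem_sup.mp hv₀top
    obtain ⟨s, rfl⟩ := hspanC x hx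
    -- `y = v₀ - s c`
    have hy' : y = (1 : ZMod p) • v₀ + (-s) • c := by
      rw [one_smul, neg_smul, ← hxy]; abel
    refine ⟨-s, fun σ hσ => ?_⟩
    have hσy : σ • y ∈ C' := hC'st σ hσ y hy
    -- `σ y - χ(σ) y ∈ C ∩ C' = 0`
    have hdiff : σ • y - chi p σ • y = (b σ - (chi p σ - 1) * (-s)) • c := by
      rw [hy', hact]
      module
    have hmemC : σ • y - chi p σ • y ∈ C := by
      rw [hdiff]; exact C.smul_mem _ hcC
    have hmemC' : σ • y - chi p σ • y ∈ C' := C'.sub_mem hσy (C'.smul_mem _ hy)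
    have hzero : σ • y - chi p σ • y = 0 := by
      have := hC'.disjoint.le_bot (Submodule.mem_inf.mpr ⟨hmemC, hmemC'⟩)
      simpa using this
    rw [hdiff] at hzero
    have := (smul_eq_zero.mp hzero).resolve_right hc0
    exact sub_eq_zero.mp this
  obtain ⟨t, ht⟩ := H b hcoc hopen hunr hloc
  -- the global complement
  refine ⟨Submodule.span (ZMod p) {v₀ + t • c}, ?_, ?_⟩
  · intro σ x hx
    obtain ⟨a, rfl⟩ := Submodule.mem_span_singleton.mp hx
    rw [smul_comm σ a]
    apply Submodule.smul_mem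
    have : σ • (v₀ + t • c) = chi p σ • (v₀ + t • c) := by
      have h1 : v₀ + t • c = (1 : ZMod p) • v₀ + t • c := by rw [one_smul]
      rw [h1, hact, ht σ]
      module
    rw [this]
    exact Submodule.smul_mem _ _ (Submodule.mem_span_singleton_self _)
  · refine ⟨?_, ?_⟩
    · rw [Submodule.disjoint_def]
      intro x hxC hx
      obtain ⟨a, rfl⟩ := Submodule.mem_span_singleton.mp hx
      obtain ⟨e, he⟩ := hspanC _ hxC
      have h0 : a • v₀ + (a * t - e) • c = 0 := by
        have : a • (v₀ + t • c) - e • c = 0 := sub_eq_zero.mpr he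
        rw [← this]
        module
      obtain ⟨ha, -⟩ := hind _ _ h0
      rw [ha, zero_smul]
    · rw [codisjoint_iff, _root_.eq_top_iff]
      intro x _
      obtain ⟨a, e, rfl⟩ := hgen x
      have : a • v₀ + e • c = (e - a * t) • c + a • (v₀ + t • c) := by
        module
      rw [this]
      exact Submodule.add_mem_sup (C.smul_mem _ hcC)
        (Submodule.smul_mem _ _ (Submodule.mem_span_singleton_self _))

/-- The top bridge for S14. -/
theorem extVanishingCts_of_characterVanishing (p : ℕ) [Fact p.Prime]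
    (H : CharacterVanishing p) : ExtVanishingCts p :=
  extVanishingCts_of_cocycleVanishing p (cocycleVanishing_of_characterVanishing p H)

end Fermat.Agent.S14Red
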