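/-
S14 front end (helper74): `Fermat.Agent.S14.FrontEnd`, i.e. `NoExt → ExtVanishingCts p` for every prime `p ≥ 3`.

Given a character `ψ` as in helper56's `CharacterVanishing p` which does not vanish on `ker χ`, the fixed field `L` of
the open normal subgroup `{χ = 1, ψ = 0}` is a Galois number field containing `ζ_p`, of degree `p` over `ℚ(ζ_p)`, on which
`Gal(ℚ(ζ_p)/ℚ)` acts through the inverse cyclotomic character and all of whose inertia groups over `ℚ(ζ_p)` are trivial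
(inertia is lifted to `Gal(ℚ̄/ℚ)` with `Lib/Minkowski/InertiaLift`).  This contradicts `NoExt`.
-/
import Mathlib
import Fermat.Agent.S14.Interface
import Fermat.Agent.S14.Reduction
import Fermat.Agent.Lib.Minkowski.InertiaLift

set_option autoImplicit false

namespace Fermat.Agent.S14FE

open Fermat.Agent.S14Red NumberField

abbrev Qb : Type := AlgebraicClosure ℚ

variable {p : ℕ} [Fact p.Prime]

attribute [local instance] Fermat.Agent.FrobExists.isAlgebraic_Qb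
  Fermat.Agent.FrobExists.isAlgClosure_Qb

/-- The defining property of the mod `p` cyclotomic character. -/
theorem apply_eq_pow_chi (σ : GQ) {ζ : Qb} (hζ : ζ ^ p = 1) :
    σ ζ = ζ ^ (chi p σ).val := by
  have : NeZero p := ⟨(Fact.out : p.Prime).ne_zero⟩
  have hu : IsUnit ζ := IsUnit.of_pow_eq_one hζ (NeZero.ne p)
  obtain ⟨u, rfl⟩ := hu
  have hmem : u ∈ rootsOfUnity p Qb := by
    rw [mem_rootsOfUnity]
    exact Units.ext (by simpa using hζ)
  have h := modularCyclotomicCharacter.spec Qb (ExtCitation.card_rootsOfUnity_eq_self p)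
    (σ : Qb ≃+* Qb) hmem
  exact h

theorem chi_eq_one_iff (σ : GQ) {ζ : Qb} (hζ : IsPrimitiveRoot ζ p) :
    chi p σ = 1 ↔ σ ζ = ζ := by
  have : NeZero p := ⟨(Fact.out : p.Prime).ne_zero⟩
  have hp1 : 1 < p := (Fact.out : p.Prime).one_lt
  rw [apply_eq_pow_chi σ hζ.pow_eq_one]
  constructor
  · intro h
    rw [h, ZMod.val_one'' (by omega), pow_one]
  · intro h
    have h2 : ζ ^ (chi p σ).val = ζ ^ 1 := by rw [h, pow_one]
    have h3 := hζ.pow_inj (ZMod.val_lt _) hp1 h2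
    have : ((chi p σ).val : ZMod p) = ((1 : ℕ) : ZMod p) := by rw [h3]
    simpa using this

theorem chi_eq_natCast_of_apply (σ : GQ) {ζ : Qb} (hζ : IsPrimitiveRoot ζ p) (k : ℕ)
    (h : σ ζ = ζ ^ k) : chi p σ = (k : ZMod p) := by
  have : NeZero p := ⟨(Fact.out : p.Prime).ne_zero⟩
  rw [apply_eq_pow_chi σ hζ.pow_eq_one] at h
  have hfin : IsOfFinOrder ζ :=
    isOfFinOrder_iff_pow_eq_one.mpr ⟨p, Nat.pos_of_ne_zero (NeZero.ne p), hζ.pow_eq_one⟩
  have h3 := hfin.pow_eq_pow_iff_modEq.mp h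
  rw [← hζ.eq_orderOf] at h3
  have := (ZMod.natCast_eq_natCast_iff _ _ _).mpr h3
  simpa using this

/-! ### The character `ψ` on `ker χ` -/

section Character

variable {ψ : GQ → ZMod p}

theorem psi_one (hadd : ∀ g h : GQ, chi p g = 1 → chi p h = 1 → ψ (g * h) = ψ g + ψ h) :
    ψ 1 = 0 := by
  have h := hadd 1 1 (chi_one p) (chi_one p)
  rw [mul_one] at h
  exact left_eq_add.mp h

theorem chi_inv_eq_one {σ : GQ} (h : chi p σ = 1) : chi p σ⁻¹ = 1 := by
  rw [chi_inv, h, inv_one]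

theorem psi_inv (hadd : ∀ g h : GQ, chi p g = 1 → chi p h = 1 → ψ (g * h) = ψ g + ψ h)
    {σ : GQ} (h : chi p σ = 1) : ψ σ⁻¹ = - ψ σ := by
  have h1 := hadd σ σ⁻¹ h (chi_inv_eq_one h)
  rw [mul_inv_cancel, psi_one hadd] at h1
  exact eq_neg_of_add_eq_zero_right h1.symm

theorem chi_pow_eq_one {σ : GQ} (h : chi p σ = 1) (k : ℕ) : chi p (σ ^ k) = 1 := by
  induction k with
  | zero => rw [pow_zero, chi_one]
  | succ k ih => rw [pow_succ, chi_mul, ih, h, mul_one]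

theorem psi_pow (hadd : ∀ g h : GQ, chi p g = 1 → chi p h = 1 → ψ (g * h) = ψ g + ψ h)
    {σ : GQ} (h : chi p σ = 1) (k : ℕ) : ψ (σ ^ k) = (k : ZMod p) * ψ σ := by
  induction k with
  | zero => rw [pow_zero, psi_one hadd, Nat.cast_zero, zero_mul]
  | succ k ih =>
    rw [pow_succ, hadd _ _ (chi_pow_eq_one h k) h, ih, Nat.cast_succ]
    ring

/-- The subgroup `{χ = 1, ψ = 0}` of the absolute Galois group. -/
def kerSubgroup (ψ : GQ → ZMod p)
    (hadd : ∀ g h : GQ, chi p g = 1 → chi p h = 1 → ψ (g * h) = ψ g + ψ h) : Subgroup GQ where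
  carrier := {σ | chi p σ = 1 ∧ ψ σ = 0}
  one_mem' := ⟨chi_one p, psi_one hadd⟩
  mul_mem' := by
    rintro a b ⟨ha, ha'⟩ ⟨hb, hb'⟩
    refine ⟨by rw [chi_mul, ha, hb, mul_one], ?_⟩
    rw [hadd a b ha hb, ha', hb', add_zero]
  inv_mem' := by
    rintro a ⟨ha, ha'⟩
    exact ⟨chi_inv_eq_one ha, by rw [psi_inv hadd ha, ha', neg_zero]⟩

theorem mem_kerSubgroup (hadd : ∀ g h : GQ, chi p g = 1 → chi p h = 1 → ψ (g * h) = ψ g + ψ h)
    (σ : GQ) : σ ∈ kerSubgroup ψ hadd ↔ chi p σ = 1 ∧ ψ σ = 0 := Iff.rfl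

theorem kerSubgroup_normal
    (hadd : ∀ g h : GQ, chi p g = 1 → chi p h = 1 → ψ (g * h) = ψ g + ψ h)
    (hconj : ∀ g h : GQ, chi p h = 1 → ψ (g * h * g⁻¹) = (chi p g)⁻¹ * ψ h) :
    (kerSubgroup ψ hadd).Normal := by
  constructor
  rintro n ⟨hn, hn'⟩ g
  refine ⟨?_, ?_⟩
  · rw [chi_mul, chi_mul, hn, mul_one, chi_inv, mul_inv_cancel₀ (chi_ne_zero p g)]
  · rw [hconj g n hn, hn', mul_zero]

/-- Two elements of `ker χ` with the same value of `ψ` are congruent modulo `kerSubgroup`. -/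
theorem inv_mul_mem_kerSubgroup
    (hadd : ∀ g h : GQ, chi p g = 1 → chi p h = 1 → ψ (g * h) = ψ g + ψ h)
    {a b : GQ} (ha : chi p a = 1) (hb : chi p b = 1) (hab : ψ a = ψ b) :
    a⁻¹ * b ∈ kerSubgroup ψ hadd := by
  refine ⟨by rw [chi_mul, chi_inv_eq_one ha, hb, mul_one], ?_⟩
  rw [hadd _ _ (chi_inv_eq_one ha) hb, psi_inv hadd ha, hab, neg_add_cancel]

end Character

/-! ### The fixed field -/

section Field

variable {ψ : GQ → ZMod p}
  (hadd : ∀ g h : GQ, chi p g = 1 → chi p h = 1 → ψ (g * h) = ψ g + ψ h)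
  (L : IntermediateField ℚ Qb)
  (hfix : L.fixingSubgroup = kerSubgroup ψ hadd)
  {ζ : Qb} (hζ : IsPrimitiveRoot ζ p)

include hfix hζ in
theorem zeta_mem : ζ ∈ L := by
  rw [← InfiniteGalois.fixedField_fixingSubgroup L, IntermediateField.mem_fixedField_iff]
  intro σ hσ
  rw [hfix] at hσ
  exact (chi_eq_one_iff σ hζ).mp hσ.1

theorem coe_restrict_apply [Normal ℚ L] (σ : GQ) (x : L) :
    ((AlgEquiv.restrictNormalHom L σ x : L) : Qb) = σ (x : Qb) :=
  AlgEquiv.restrictNormal_commutes σ L x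

include hζ in
theorem restrict_fix_iff [Normal ℚ L] (hmem : ζ ∈ L) (σ : GQ) :
    AlgEquiv.restrictNormalHom L σ ⟨ζ, hmem⟩ = ⟨ζ, hmem⟩ ↔ chi p σ = 1 := by
  rw [chi_eq_one_iff σ hζ, Subtype.ext_iff, coe_restrict_apply]

include hfix in
theorem restrict_eq_one_iff [Normal ℚ L] (σ : GQ) :
    AlgEquiv.restrictNormalHom L σ = 1 ↔ σ ∈ kerSubgroup ψ hadd := by
  rw [← hfix, IntermediateField.mem_fixingSubgroup_iff]
  constructor
  · intro h x hx
    have h1 := coe_restrict_apply L σ ⟨x, hx⟩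
    rw [h] at h1
    exact h1.symm
  · intro h
    ext x
    rw [coe_restrict_apply]
    exact h _ x.2

include hfix in
theorem restrict_eq_of_psi_eq [Normal ℚ L] {a b : GQ} (ha : chi p a = 1) (hb : chi p b = 1)
    (hab : ψ a = ψ b) : AlgEquiv.restrictNormalHom L a = AlgEquiv.restrictNormalHom L b := by
  have h := (restrict_eq_one_iff hadd L hfix (a⁻¹ * b)).mpr (inv_mul_mem_kerSubgroup hadd ha hb hab)
  rw [map_mul, map_inv, inv_mul_eq_one] at h
  exact h

include hfix in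
theorem psi_eq_of_restrict_eq [Normal ℚ L] {a b : GQ} (ha : chi p a = 1) (hb : chi p b = 1)
    (hab : AlgEquiv.restrictNormalHom L a = AlgEquiv.restrictNormalHom L b) : ψ a = ψ b := by
  have h : AlgEquiv.restrictNormalHom L (a⁻¹ * b) = 1 := by
    rw [map_mul, map_inv, inv_mul_eq_one]; exact hab
  have h2 := ((restrict_eq_one_iff hadd L hfix (a⁻¹ * b)).mp h).2
  rw [hadd _ _ (chi_inv_eq_one ha) hb, psi_inv hadd ha] at h2
  exact (neg_add_eq_zero.mp h2)

end Field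

/-! ### Primes of the number field and valuation subrings of `ℚ̄` -/

section Valuation

/-- Above every nonzero prime of the ring of integers of a subfield of `ℚ̄` there is a valuation
subring of `ℚ̄`, lying over a rational prime. -/
theorem exists_valuationSubring_of_prime (L : IntermediateField ℚ Qb)
    (P : Ideal (𝓞 L)) (hP : P.IsPrime) (hP0 : P ≠ ⊥) :
    ∃ (B : ValuationSubring Qb) (q : ℕ), q.Prime ∧ B.LiesOverPrime q ∧
      ∀ y ∈ P, (((y : 𝓞 L) : L) : Qb) ∈ B.nonunits := by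
  let f : 𝓞 L →+* Qb := (algebraMap L Qb).comp (algebraMap (𝓞 L) L)
  have hf : Function.Injective f :=
    (algebraMap L Qb).injective.comp (FaithfulSMul.algebraMap_injective (𝓞 L) L)
  let I : Ideal f.range := Ideal.map f.rangeRestrict P
  have hI : I ≠ ⊤ := by
    intro h
    have h1 : (1 : f.range) ∈ I := by rw [h]; trivial
    rw [Ideal.mem_map_iff_of_surjective _ f.rangeRestrict_surjective] at h1
    obtain ⟨y, hy, hy1⟩ := h1
    have h2 : f y = 1 := congrArg Subtype.val hy1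
    have h3 : y = 1 := hf (by rw [h2, map_one])
    rw [h3] at hy
    exact hP.ne_top ((Ideal.eq_top_iff_one P).mpr hy)
  obtain ⟨B, -, hB⟩ := Ideal.image_subset_nonunits_valuationSubring I hI
  have hmemB : ∀ y ∈ P, (((y : 𝓞 L) : L) : Qb) ∈ B.nonunits := by
    intro y hy
    exact hB ⟨f.rangeRestrict y, Ideal.mem_map_of_mem _ hy, rfl⟩
  have : P.IsPrime := hP
  have : NeZero P := ⟨hP0⟩
  have hq : (Ideal.absNorm (Ideal.under ℤ P)).Prime := Nat.absNorm_under_prime P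
  refine ⟨B, Ideal.absNorm (Ideal.under ℤ P), hq, ?_, hmemB⟩
  have h1 : ((Ideal.absNorm (Ideal.under ℤ P) : ℕ) : ℤ) ∈ Ideal.under ℤ P :=
    Ideal.absNorm_mem _
  have h2 : algebraMap ℤ (𝓞 L) ((Ideal.absNorm (Ideal.under ℤ P) : ℕ) : ℤ) ∈ P := h1
  have h3 := hmemB _ h2
  simpa [ValuationSubring.LiesOverPrime] using h3

end Valuation

/-! ### The three conditions of `NoExt` -/

section Conditions

variable {ψ : GQ → ZMod p}
  (hadd : ∀ g h : GQ, chi p g = 1 → chi p h = 1 → ψ (g * h) = ψ g + ψ h)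
  (hconj : ∀ g h : GQ, chi p h = 1 → ψ (g * h * g⁻¹) = (chi p g)⁻¹ * ψ h)
  (L : IntermediateField ℚ Qb) [FiniteDimensional ℚ L] [IsGalois ℚ L]
  (hfix : L.fixingSubgroup = kerSubgroup ψ hadd)
  {ζ : Qb} (hζ : IsPrimitiveRoot ζ p) (hmem : ζ ∈ L)

omit [FiniteDimensional ℚ L] in
theorem exists_lift (τ : L ≃ₐ[ℚ] L) : ∃ σ : GQ, AlgEquiv.restrictNormalHom L σ = τ :=
  AlgEquiv.restrictNormalHom_surjective (F := ℚ) (K₁ := L) Qb τ

omit [FiniteDimensional ℚ L] in
include hfix hζ in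
theorem card_fix (σ₀ : GQ) (hσ₀ : chi p σ₀ = 1) (hψ : ψ σ₀ ≠ 0) :
    Nat.card {τ : L ≃ₐ[ℚ] L // τ ⟨ζ, hmem⟩ = ⟨ζ, hmem⟩} = p := by
  have : NeZero p := ⟨(Fact.out : p.Prime).ne_zero⟩
  let lift : (L ≃ₐ[ℚ] L) → GQ := fun τ => Classical.choose (exists_lift L τ)
  have hlift : ∀ τ, AlgEquiv.restrictNormalHom L (lift τ) = τ :=
    fun τ => Classical.choose_spec (exists_lift L τ)
  have hchi : ∀ τ : {τ : L ≃ₐ[ℚ] L // τ ⟨ζ, hmem⟩ = ⟨ζ, hmem⟩}, chi p (lift τ.1) = 1 := by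
    intro τ
    rw [← restrict_fix_iff L hζ hmem, hlift]
    exact τ.2
  let f : {τ : L ≃ₐ[ℚ] L // τ ⟨ζ, hmem⟩ = ⟨ζ, hmem⟩} → ZMod p := fun τ => ψ (lift τ.1)
  have hinj : Function.Injective f := by
    intro a b hab
    have h := restrict_eq_of_psi_eq hadd L hfix (hchi a) (hchi b) hab
    rw [hlift, hlift] at h
    exact Subtype.ext h
  have hsurj : Function.Surjective f := by
    intro c
    let k : ℕ := (c * (ψ σ₀)⁻¹).val
    have hk : chi p (σ₀ ^ k) = 1 := chi_pow_eq_one hσ₀ k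
    have hψk : ψ (σ₀ ^ k) = c := by
      rw [psi_pow hadd hσ₀, ZMod.natCast_zmod_val, mul_assoc, inv_mul_cancel₀ hψ, mul_one]
    refine ⟨⟨AlgEquiv.restrictNormalHom L (σ₀ ^ k), (restrict_fix_iff L hζ hmem _).mpr hk⟩, ?_⟩
    change ψ (lift (AlgEquiv.restrictNormalHom L (σ₀ ^ k))) = c
    rw [← hψk]
    refine psi_eq_of_restrict_eq hadd L hfix ?_ hk (hlift _)
    rw [← restrict_fix_iff L hζ hmem, hlift]
    exact (restrict_fix_iff L hζ hmem _).mpr hk
  rw [Nat.card_congr (Equiv.ofBijective f ⟨hinj, hsurj⟩), Nat.card_zmod]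

omit [FiniteDimensional ℚ L] in
include hfix hζ hconj in
theorem conj_rel (g τ : L ≃ₐ[ℚ] L) (k : ℕ) (hτ : τ ⟨ζ, hmem⟩ = ⟨ζ, hmem⟩)
    (hg : g ⟨ζ, hmem⟩ = (⟨ζ, hmem⟩ : L) ^ k) : g⁻¹ * τ * g = τ ^ k := by
  obtain ⟨g', rfl⟩ := exists_lift L g
  obtain ⟨τ', rfl⟩ := exists_lift L τ
  have hτ' : chi p τ' = 1 := (restrict_fix_iff L hζ hmem τ').mp hτ
  have hg' : chi p g' = (k : ZMod p) := by
    apply chi_eq_natCast_of_apply g' hζ k
    have h := congrArg (fun x : L => (x : Qb)) hg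
    simpa [coe_restrict_apply] using h
  have h1 : chi p (g'⁻¹ * τ' * g') = 1 := by
    rw [chi_mul, chi_mul, hτ', mul_one, chi_inv, inv_mul_cancel₀ (chi_ne_zero p g')]
  have h2 : ψ (g'⁻¹ * τ' * g') = ψ (τ' ^ k) := by
    have h := hconj g'⁻¹ τ' hτ'
    rw [inv_inv] at h
    rw [h, chi_inv, inv_inv, hg', psi_pow hadd hτ']
  have h3 := restrict_eq_of_psi_eq hadd L hfix h1 (chi_pow_eq_one hτ' k) h2
  rw [map_mul, map_mul, map_inv, map_pow] at h3
  exact h3

include hfix hζ in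
theorem unramified_rel
    (hunr : ∀ ℓ : ℕ, ℓ.Prime → ℓ ≠ p → ∀ A : ValuationSubring (AlgebraicClosure ℚ),
      A.LiesOverPrime ℓ → ∀ σ ∈ A.inertiaSubgroupIn ℚ, chi p σ = 1 ∧ ψ σ = 0)
    (hsplit : ∀ A : ValuationSubring (AlgebraicClosure ℚ), A.LiesOverPrime p →
      ∀ σ ∈ A.decompositionSubgroup ℚ, chi p σ = 1 → ψ σ = 0)
    (P : Ideal (𝓞 L)) (hP : P.IsPrime) (hP0 : P ≠ ⊥) (τ : L ≃ₐ[ℚ] L)
    (hτ : τ ⟨ζ, hmem⟩ = ⟨ζ, hmem⟩)
    (hin : ∀ x : 𝓞 L, ∃ y ∈ P, τ (x : L) - (x : L) = (y : L)) : τ = 1 := by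
  obtain ⟨B, q, hq, hBq, hB⟩ := exists_valuationSubring_of_prime L P hP hP0
  have hs : ∀ x : L, IsIntegral ℤ x →
      ((τ x : L) : AlgebraicClosure ℚ) - (x : AlgebraicClosure ℚ) ∈ B.nonunits := by
    intro x hx
    obtain ⟨y, hy, hxy⟩ := hin ⟨x, hx⟩
    have h1 := hB y hy
    rw [← hxy] at h1
    simpa using h1
  obtain ⟨σ, hσ, hστ⟩ :=
    Fermat.Agent.Minkowski.exists_mem_inertiaSubgroupIn_restrict B q hq hBq L τ hs
  have hχ : chi p σ = 1 := by
    rw [← restrict_fix_iff L hζ hmem, hστ]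
    exact hτ
  have hψσ : ψ σ = 0 := by
    by_cases hqp : q = p
    · subst hqp
      refine hsplit B hBq σ ?_ hχ
      obtain ⟨d, -, hd⟩ := hσ
      rw [← hd]
      exact d.2
    · exact (hunr q hq hqp B hBq σ hσ).2
  rw [← hστ]
  exact (restrict_eq_one_iff hadd L hfix σ).mpr ⟨hχ, hψσ⟩

end Conditions

/-! ### The front end -/

/-- `NoExt` implies helper56's `CharacterVanishing p` for every prime `p ≥ 3`. -/
theorem characterVanishing_of_noExt (hNoExt : Fermat.Agent.S14.NoExt) (h3 : 3 ≤ p) :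
    CharacterVanishing p := by
  intro ψ hadd hconj hopen hunr hsplit
  by_contra hcon
  push Not at hcon
  obtain ⟨σ₀, hσ₀, hψσ₀⟩ := hcon
  have hp : p.Prime := Fact.out
  have : NeZero p := ⟨hp.ne_zero⟩
  obtain ⟨ζ, hζ⟩ := HasEnoughRootsOfUnity.exists_primitiveRoot Qb p
  have hNormal : (kerSubgroup ψ hadd).Normal := kerSubgroup_normal hadd hconj
  have hNopen : IsOpen ((kerSubgroup ψ hadd : Subgroup GQ) : Set GQ) := hopen
  have hNclosed : IsClosed ((kerSubgroup ψ hadd : Subgroup GQ) : Set GQ) :=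
    Subgroup.isClosed_of_isOpen _ hNopen
  let L : IntermediateField ℚ Qb := IntermediateField.fixedField (kerSubgroup ψ hadd)
  have hfix : L.fixingSubgroup = kerSubgroup ψ hadd :=
    InfiniteGalois.fixingSubgroup_fixedField ⟨kerSubgroup ψ hadd, hNclosed⟩
  have hfd : FiniteDimensional ℚ L :=
    (InfiniteGalois.isOpen_iff_finite L).mp (by rw [hfix]; exact hNopen)
  have hgal : IsGalois ℚ L :=
    (InfiniteGalois.normal_iff_isGalois L).mp (by rw [hfix]; exact hNormal)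
  have hnf : NumberField L := { }
  have hmem : ζ ∈ L := zeta_mem hadd L hfix hζ
  have hζL : IsPrimitiveRoot (⟨ζ, hmem⟩ : L) p :=
    IsPrimitiveRoot.of_map_of_injective (f := algebraMap L Qb) hζ (algebraMap L Qb).injective
  exact hNoExt p L ⟨ζ, hmem⟩ hp h3 hζL
    (card_fix hadd L hfix hζ hmem σ₀ hσ₀ hψσ₀)
    (fun g τ k hτ hg => conj_rel hadd hconj L hfix hζ hmem g τ k hτ hg)
    (fun P hP hP0 τ hτ hin => unramified_rel hadd L hfix hζ hmem hunr hsplit P hP hP0 τ hτ hin)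

/-- **(H5) Front end** of the S14 mini class field theory. -/
theorem frontEnd : Fermat.Agent.S14.FrontEnd := fun hNoExt p _ h3 =>
  extVanishingCts_of_characterVanishing p (characterVanishing_of_noExt hNoExt h3)

end Fermat.Agent.S14FE
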